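import Fermat.Agent.S27.H970.ChartSingle
import Fermat.Agent.S25.H207.ChartCor
import Fermat.Agent.S25.H250.ChartAlg
import Fermat.Agent.S25.H747.CurveCospan

/-!
# S27 / a curve chart is a function-field cospan (helper970)

For a curve chart `(B₀, B₁, B₀₁, x, y, e)` over an algebraically closed field `K` and a fraction
field `F` of `B₀₁`, the cospan `K ⊗[K] B₀ → K ⊗[K] B₀₁ ← K ⊗[K] B₁` (the one of
`CurveGD K B₀ B₁ B₀₁ K`) is a function-field cospan (`IsFFCospan`).  Consequences:

* `ff1_of_chart`        : `Lib.RR.FF1 K F`;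
* `genusFF_eq_genus`    : **GENUS** `genusFF K F = S25.H747.genus K B₀ B₁ B₀₁`.
-/

set_option autoImplicit false
set_option linter.unusedSectionVars false
set_option linter.style.haveILetI false
universe u

noncomputable section

open AlgebraicCurve Polynomial
open scoped TensorProduct

namespace Fermat.Agent.S27.H970

open Fermat.Agent.S25 Fermat.Agent.Lib.RR

section Tensor

variable {K : Type u} [Field K] {F : Type u} [Field F] [Algebra K F]

/-- `K ⊗[K] B → F`, through `K ⊗[K] B ≃ B`. -/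
def tensorAlgF (B : Type u) [CommRing B] [Algebra K B] [Algebra B F] : Algebra (K ⊗[K] B) F :=
  ((algebraMap B F).comp (Algebra.TensorProduct.lid K B : K ⊗[K] B →+* B)).toAlgebra

attribute [local instance] tensorAlgF

theorem tensorAlgF_apply (B : Type u) [CommRing B] [Algebra K B] [Algebra B F]
    (z : K ⊗[K] B) :
    algebraMap (K ⊗[K] B) F z = algebraMap B F (Algebra.TensorProduct.lid K B z) := rfl

theorem tensorAlgF_tmul (B : Type u) [CommRing B] [Algebra K B] [Algebra B F]
    (a : K) (b : B) :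
    algebraMap (K ⊗[K] B) F (a ⊗ₜ[K] b) = algebraMap B F (a • b) := by
  rw [tensorAlgF_apply, Algebra.TensorProduct.lid_tmul]

theorem tensorAlgF_one_tmul (B : Type u) [CommRing B] [Algebra K B] [Algebra B F] (b : B) :
    algebraMap (K ⊗[K] B) F ((1 : K) ⊗ₜ[K] b) = algebraMap B F b := by
  rw [tensorAlgF_tmul, one_smul]

theorem range_tensorAlgF (B : Type u) [CommRing B] [Algebra K B] [Algebra B F] :
    Set.range (algebraMap (K ⊗[K] B) F) = Set.range (algebraMap B F) := by
  ext f
  constructor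
  · rintro ⟨z, rfl⟩
    exact ⟨_, rfl⟩
  · rintro ⟨b, rfl⟩
    exact ⟨(1 : K) ⊗ₜ[K] b, tensorAlgF_one_tmul B b⟩

theorem tensorTowerF (B : Type u) [CommRing B] [Algebra K B] [Algebra B F]
    [IsScalarTower K B F] : IsScalarTower K (K ⊗[K] B) F :=
  IsScalarTower.of_algebraMap_eq (R := K) (S := K ⊗[K] B) (A := F) (fun a => by
    have h1 : algebraMap K (K ⊗[K] B) a = a ⊗ₜ[K] (1 : B) := rfl
    rw [h1, tensorAlgF_tmul, ← Algebra.algebraMap_eq_smul_one,
      ← IsScalarTower.algebraMap_apply K B F])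

theorem tensorTowerFF (B B' : Type u) [CommRing B] [Algebra K B] [Algebra B F]
    [CommRing B'] [Algebra K B'] [Algebra B' F] [Algebra B B'] [IsScalarTower K B B']
    [IsScalarTower B B' F] : IsScalarTower (K ⊗[K] B) (K ⊗[K] B') F :=
  IsScalarTower.of_algebraMap_eq (R := K ⊗[K] B) (S := K ⊗[K] B') (A := F) (fun z => by
    induction z using TensorProduct.induction_on with
    | zero => simp
    | add a b ha hb => simp only [map_add, ha, hb]
    | tmul a b =>
      rw [H747.algebraMap_tensor_apply, tensorAlgF_tmul, tensorAlgF_tmul,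
        IsScalarTower.algebraMap_apply B B' F, Algebra.smul_def, Algebra.smul_def, map_mul,
        ← IsScalarTower.algebraMap_apply K B B'])

attribute [local instance] tensorTowerF tensorTowerFF

theorem injective_tensorAlgF (B : Type u) [CommRing B] [Algebra K B] [Algebra B F]
    (hinj : Function.Injective (algebraMap B F)) :
    Function.Injective (algebraMap (K ⊗[K] B) F) :=
  hinj.comp (Algebra.TensorProduct.lid K B).injective

theorem isFractionRing_tensorAlgF (B : Type u) [CommRing B] [Algebra K B] [Algebra B F]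
    [IsDomain B] [IsFractionRing B F] : IsFractionRing (K ⊗[K] B) F := by
  haveI : FaithfulSMul (K ⊗[K] B) F :=
    (faithfulSMul_iff_algebraMap_injective _ _).mpr
      (injective_tensorAlgF B (IsFractionRing.injective B F))
  refine IsFractionRing.of_field _ _ fun z => ?_
  obtain ⟨a, b, _, rfl⟩ := IsFractionRing.div_surjective (A := B) z
  exact ⟨(1 : K) ⊗ₜ[K] a, (1 : K) ⊗ₜ[K] b, by
    rw [tensorAlgF_one_tmul, tensorAlgF_one_tmul]⟩

end Tensor

section Chart

attribute [local instance] tensorAlgF tensorTowerF tensorTowerFF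

variable {K : Type u} [Field K] [IsAlgClosed K]
  {B₀ B₁ B₀₁ : Type u} [CommRing B₀] [CommRing B₁] [CommRing B₀₁]
  [Algebra K B₀] [Algebra K B₁] [Algebra K B₀₁] [Algebra B₀ B₀₁] [Algebra B₁ B₀₁]
  [IsScalarTower K B₀ B₀₁] [IsScalarTower K B₁ B₀₁]
  {x : B₀} {y : B₁} {e : B₁ →ₐ[K] K}
  {F : Type u} [Field F] [Algebra K F] [Algebra B₀₁ F] [IsScalarTower K B₀₁ F]
  [IsFractionRing B₀₁ F]
  [Algebra B₀ F] [Algebra B₁ F] [IsScalarTower B₀ B₀₁ F] [IsScalarTower B₁ B₀₁ F]
  [IsScalarTower K B₀ F] [IsScalarTower K B₁ F]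

omit [IsAlgClosed K] in
/-- `Frac B = F` if `B[1/t] = B'` and `Frac B' = F`. -/
theorem isFractionRing_of_away {B B' : Type u} [CommRing B] [CommRing B'] [IsDomain B]
    [Algebra B B'] [Algebra B' F] [Algebra B F] [IsScalarTower B B' F] [IsDomain B']
    [IsFractionRing B' F] (t : B) (ht : t ≠ 0) [IsLocalization.Away t B'] :
    IsFractionRing B F := by
  have hinj' : Function.Injective (algebraMap B B') :=
    IsLocalization.injective B' (M := Submonoid.powers t)
      (Submonoid.powers_le.2 (mem_nonZeroDivisors_of_ne_zero ht))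
  have hinj : Function.Injective (algebraMap B F) := by
    rw [IsScalarTower.algebraMap_eq B B' F]
    exact (IsFractionRing.injective B' F).comp hinj'
  haveI : FaithfulSMul B F := (faithfulSMul_iff_algebraMap_injective _ _).mpr hinj
  have hlift : ∀ a : B', ∃ (a' : B) (n : ℕ),
      algebraMap B' F a * algebraMap B F t ^ n = algebraMap B F a' := by
    intro a
    obtain ⟨⟨a', s⟩, hs⟩ := IsLocalization.surj (Submonoid.powers t) a
    obtain ⟨n, hn⟩ := s.2
    refine ⟨a', n, ?_⟩
    have := congrArg (algebraMap B' F) hs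
    rw [map_mul, ← IsScalarTower.algebraMap_apply B B' F,
      ← IsScalarTower.algebraMap_apply B B' F, ← hn, map_pow] at this
    exact this
  have htF : algebraMap B F t ≠ 0 := fun h0 => ht (hinj (by rw [h0, map_zero]))
  refine IsFractionRing.of_field _ _ fun z => ?_
  obtain ⟨a, b, hb, rfl⟩ := IsFractionRing.div_surjective (A := B') z
  obtain ⟨a', n, ha⟩ := hlift a
  obtain ⟨b', m, hb'⟩ := hlift b
  have hb0 : algebraMap B' F b ≠ 0 := by
    intro h0
    have : b = 0 := IsFractionRing.injective B' F (by rw [h0, map_zero])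
    exact nonZeroDivisors.ne_zero hb this
  refine ⟨a' * t ^ m, b' * t ^ n, ?_⟩
  rw [map_mul, map_mul, map_pow, map_pow, ← ha, ← hb']
  field_simp

theorem isFractionRing_chart₀ (hC : IsCurveChart K B₀ B₁ B₀₁ x y e) : IsFractionRing B₀ F :=
  haveI := hC.isDomain₀
  haveI := H207.isDomain_chart₀₁ hC
  haveI := hC.away₀
  isFractionRing_of_away (B' := B₀₁) x (H250.x_ne_zero hC)

theorem isFractionRing_chart₁ (hC : IsCurveChart K B₀ B₁ B₀₁ x y e) : IsFractionRing B₁ F :=
  haveI := hC.isDomain₁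
  haveI := H207.isDomain_chart₀₁ hC
  haveI := hC.away₁
  isFractionRing_of_away (B' := B₀₁) y (H250.y_ne_zero hC)

theorem chart_mul_eq_one_F (hC : IsCurveChart K B₀ B₁ B₀₁ x y e) :
    algebraMap B₀ F x * algebraMap B₁ F y = 1 := by
  rw [IsScalarTower.algebraMap_apply B₀ B₀₁ F, IsScalarTower.algebraMap_apply B₁ B₀₁ F,
    ← map_mul, hC.mul_eq_one, map_one]

theorem transcendental_xF (hC : IsCurveChart K B₀ B₁ B₀₁ x y e) :
    Transcendental K (algebraMap B₀ F x) := by
  haveI := hC.isDomain₀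
  haveI : IsFractionRing B₀ F := isFractionRing_chart₀ hC
  exact (transcendental_algebraMap_iff (IsFractionRing.injective B₀ F)).mpr
    (H250.transcendental_x hC)

theorem transcendental_yF (hC : IsCurveChart K B₀ B₁ B₀₁ x y e) :
    Transcendental K (algebraMap B₁ F y) := by
  haveI := hC.isDomain₁
  haveI : IsFractionRing B₁ F := isFractionRing_chart₁ hC
  exact (transcendental_algebraMap_iff (IsFractionRing.injective B₁ F)).mpr
    (H250.transcendental_y hC)

theorem ff1_of_chart' (hC : IsCurveChart K B₀ B₁ B₀₁ x y e) : FF1 K F :=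
  haveI := hC.isDomain₀
  haveI : IsFractionRing B₀ F := isFractionRing_chart₀ hC
  ff1_of_finite_aeval x hC.finite₀ (transcendental_xF hC)

/-- **A curve chart is a function-field cospan.** -/
theorem isFFCospan_chart (hC : IsCurveChart K B₀ B₁ B₀₁ x y e) :
    IsFFCospan K F (K ⊗[K] B₀₁) ((1 : K) ⊗ₜ[K] x) ((1 : K) ⊗ₜ[K] y) := by
  haveI := hC.isDomain₀
  haveI := hC.isDomain₁
  haveI d₀ := H207.isDedekindDomain_chart₀ hC
  haveI d₁ := H207.isDedekindDomain_chart₁ hC
  haveI f₀ : IsFractionRing B₀ F := isFractionRing_chart₀ hC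
  haveI f₁ : IsFractionRing B₁ F := isFractionRing_chart₁ hC
  have hxy := chart_mul_eq_one_F (F := F) hC
  have hy : algebraMap B₁ F y = (algebraMap B₀ F x)⁻¹ := eq_inv_of_mul_eq_one_right hxy
  refine
    { ff1 := ff1_of_chart' hC
      x_nonconst := ?_
      mul_eq_one := ?_
      range₀ := ?_
      range₁ := ?_
      dedekind₀ := H207.isDedekindDomain_tensor_chart₀ hC K
      dedekind₁ := H207.isDedekindDomain_tensor_chart₁ hC K
      frac₀ := isFractionRing_tensorAlgF B₀
      frac₁ := isFractionRing_tensorAlgF B₁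
      away₀ := ?_
      away₁ := ?_ }
  · rw [tensorAlgF_one_tmul]
    rintro ⟨a, ha⟩
    exact transcendental_xF (F := F) hC (ha ▸ isAlgebraic_algebraMap a)
  · rw [tensorAlgF_one_tmul, tensorAlgF_one_tmul]
    exact hxy
  · intro f
    rw [range_tensorAlgF, tensorAlgF_one_tmul]
    exact mem_range_iff_of_finite_aeval x hC.finite₀ (transcendental_xF hC) f
  · intro f
    rw [range_tensorAlgF, tensorAlgF_one_tmul,
      mem_range_iff_of_finite_aeval y hC.finite₁ (transcendental_yF hC) f]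
    refine forall_congr' fun v => ?_
    rw [hy, v.ord_inv]
    constructor
    · intro h1 h2; exact h1 (by omega)
    · intro h1 h2; exact h1 (by omega)
  · haveI := hC.away₀
    exact H747.isLocalization_away_tensor K B₀ B₀₁ x
  · haveI := hC.away₁
    exact H747.isLocalization_away_tensor K B₁ B₀₁ y

end Chart

section Final

attribute [local instance] tensorAlgF tensorTowerF tensorTowerFF

variable {K : Type u} [Field K] [IsAlgClosed K]
  {B₀ B₁ B₀₁ : Type u} [CommRing B₀] [CommRing B₁] [CommRing B₀₁]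
  [Algebra K B₀] [Algebra K B₁] [Algebra K B₀₁] [Algebra B₀ B₀₁] [Algebra B₁ B₀₁]
  [IsScalarTower K B₀ B₀₁] [IsScalarTower K B₁ B₀₁]
  {x : B₀} {y : B₁} {e : B₁ →ₐ[K] K}
  (F : Type u) [Field F] [Algebra K F] [Algebra B₀₁ F] [IsScalarTower K B₀₁ F]
  [IsFractionRing B₀₁ F]

/-- The composite algebra structure `B → B₀₁ → F`. -/
def chartAlgF (B : Type u) [CommRing B] [Algebra B B₀₁] : Algebra B F :=
  ((algebraMap B₀₁ F).comp (algebraMap B B₀₁)).toAlgebra

omit [IsAlgClosed K] [IsFractionRing B₀₁ F] in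
theorem chartTowerF (B : Type u) [CommRing B] [Algebra B B₀₁] :
    letI := chartAlgF (B₀₁ := B₀₁) F B
    IsScalarTower B B₀₁ F :=
  letI := chartAlgF (B₀₁ := B₀₁) F B
  IsScalarTower.of_algebraMap_eq (fun _ => rfl)

omit [IsAlgClosed K] [IsFractionRing B₀₁ F] in
theorem chartTowerKF (B : Type u) [CommRing B] [Algebra K B] [Algebra B B₀₁]
    [IsScalarTower K B B₀₁] :
    letI := chartAlgF (B₀₁ := B₀₁) F B
    IsScalarTower K B F :=
  letI := chartAlgF (B₀₁ := B₀₁) F B
  IsScalarTower.of_algebraMap_eq (fun a => by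
    rw [IsScalarTower.algebraMap_apply K B₀₁ F, IsScalarTower.algebraMap_apply K B B₀₁]
    rfl)

/-- **`FF1 K F` for the function field of a curve chart.** -/
theorem ff1_of_chart (hC : IsCurveChart K B₀ B₁ B₀₁ x y e) : FF1 K F := by
  letI := chartAlgF (B₀₁ := B₀₁) F B₀
  letI := chartAlgF (B₀₁ := B₀₁) F B₁
  haveI := chartTowerF (B₀₁ := B₀₁) F B₀
  haveI := chartTowerF (B₀₁ := B₀₁) F B₁
  haveI := chartTowerKF (K := K) (B₀₁ := B₀₁) F B₀
  haveI := chartTowerKF (K := K) (B₀₁ := B₀₁) F B₁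
  exact ff1_of_chart' hC

/-- **GENUS**: the genus of the function field (prelude: `dim_K 𝔸/(𝔸(0) + F)`) equals the
Čech genus `dim_K Ȟ¹(O)` of the chart. -/
theorem genusFF_eq_genus (hC : IsCurveChart K B₀ B₁ B₀₁ x y e) :
    genusFF K F = H747.genus K B₀ B₁ B₀₁ := by
  letI := chartAlgF (B₀₁ := B₀₁) F B₀
  letI := chartAlgF (B₀₁ := B₀₁) F B₁
  haveI := chartTowerF (B₀₁ := B₀₁) F B₀
  haveI := chartTowerF (B₀₁ := B₀₁) F B₁
  haveI := chartTowerKF (K := K) (B₀₁ := B₀₁) F B₀
  haveI := chartTowerKF (K := K) (B₀₁ := B₀₁) F B₁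
  exact ((isFFCospan_chart (F := F) hC).finrank_H1_unit).symm

omit F [Field F] [Algebra K F] [Algebra B₀₁ F] [IsScalarTower K B₀₁ F] [IsFractionRing B₀₁ F] in
/-- `Ȟ¹(O)` of a curve chart is finite-dimensional. -/
theorem finite_H1_unit_chart (hC : IsCurveChart K B₀ B₁ B₀₁ x y e) :
    Module.Finite K (GlueDatum.unit K (K ⊗[K] B₀) (K ⊗[K] B₁) (K ⊗[K] B₀₁)).H1 := by
  haveI := H207.isDomain_chart₀₁ hC
  let F := FractionRing B₀₁
  letI := chartAlgF (B₀₁ := B₀₁) F B₀
  letI := chartAlgF (B₀₁ := B₀₁) F B₁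
  haveI := chartTowerF (B₀₁ := B₀₁) F B₀
  haveI := chartTowerF (B₀₁ := B₀₁) F B₁
  haveI := chartTowerKF (K := K) (B₀₁ := B₀₁) F B₀
  haveI := chartTowerKF (K := K) (B₀₁ := B₀₁) F B₁
  exact (isFFCospan_chart (F := F) hC).finite_H1_unit

end Final

end Fermat.Agent.S27.H970
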