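import Fermat.Agent.S27.H970.PicTensor
import Fermat.Agent.S27.H970.ChartCospan

/-!
# S27 / leaf PIC-CL (helper970): `Stmt.PicCl K F`, exact Spec shape

For a curve model `M` of the function field `F / K` (`K` algebraically closed), the gluing data
of degree zero over `K` up to isomorphism are the group `Pic⁰(F)`:

`picCl K F : Stmt.PicCl K F`.

Method: on the function-field cospan of the chart every gluing datum is `O(D)`
(`IsFFCospan.exists_isIso_ofDivisor`), `O(D) ≅ O(D') ↔ D - D'` principal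
(`IsFFCospan.ofDivisor_isIso_iff`), `deg O(D) = deg D` (`IsFFCospan.degree_ofDivisor`), and a
tensor product of `O(D)`, `O(D')` is `O(D + D')` (`IsFFCospan.add_sub_mem_principal_of_tensor`).
-/

set_option autoImplicit false
set_option linter.unusedSectionVars false
set_option linter.style.haveILetI false
universe u

noncomputable section

open AlgebraicCurve
open scoped TensorProduct

namespace Fermat.Agent.S27.H970

open Fermat.Agent.S25 Fermat.Agent.Lib.RR

section Pic0

variable {K F : Type*} [Field K] [Field F] [Algebra K F]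

theorem pic0_mk_eq_mk_iff (D D' : Divisor.degZero (K := K) (F := F)) :
    Pic0.mk D = Pic0.mk D' ↔
      (D : Divisor K F) - (D' : Divisor K F) ∈ Divisor.principal (K := K) (F := F) := by
  unfold Pic0.mk
  rw [QuotientAddGroup.eq, AddSubgroup.mem_addSubgroupOf]
  constructor
  · intro h1
    have := (Divisor.principal (K := K) (F := F)).neg_mem h1
    convert this using 1
    push_cast
    abel
  · intro h1
    have := (Divisor.principal (K := K) (F := F)).neg_mem h1
    convert this using 1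
    push_cast
    abel

theorem degree_eq_zero_of_mem_principal [HasPrincipalDivisors K F] {D : Divisor K F}
    (hD : D ∈ Divisor.principal (K := K) (F := F)) : Divisor.degree D = 0 := by
  obtain ⟨f, hf, hDf⟩ := hD
  obtain ⟨E, hE, hdeg⟩ := HasPrincipalDivisors.exists_divisor (K := K) f hf
  have : D = E := Finsupp.ext fun v => by rw [hDf v, hE v]
  rw [this, hdeg]

end Pic0

section Abstract

variable {K F R₀ R₁ R₀₁ : Type u} [Field K] [Field F] [Algebra K F]
  [CommRing R₀] [CommRing R₁] [CommRing R₀₁] [Algebra K R₀] [Algebra K R₁] [Algebra K R₀₁]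
  [Algebra R₀ R₀₁] [Algebra R₁ R₀₁] [IsScalarTower K R₀ R₀₁] [IsScalarTower K R₁ R₀₁]
  [Algebra R₀ F] [Algebra R₁ F] [Algebra R₀₁ F]
  [IsScalarTower R₀ R₀₁ F] [IsScalarTower R₁ R₀₁ F]
  [IsScalarTower K R₀ F] [IsScalarTower K R₁ F] [IsScalarTower K R₀₁ F]
  {x₀ : R₀} {y₁ : R₁}

/-- **PIC-CL on a function-field cospan.** -/
theorem IsFFCospan.exists_cl (h : IsFFCospan K F R₀₁ x₀ y₁) :
    ∃ cl : {G : GlueDatum K R₀ R₁ R₀₁ // G.degree = 0} → Pic0 K F,
      Function.Surjective cl ∧ (∀ G G', cl G = cl G' ↔ G.1.IsIso G'.1) ∧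
        ∀ (G G' : {G : GlueDatum K R₀ R₁ R₀₁ // G.degree = 0}) (G'' : GlueDatum K R₀ R₁ R₀₁),
          IsTensor G.1 G'.1 G'' → ∃ h : G''.degree = 0, cl ⟨G'', h⟩ = cl G + cl G' := by
  haveI := h.ff1
  choose D hD using h.exists_isIso_ofDivisor
  have hdeg : ∀ G : GlueDatum K R₀ R₁ R₀₁, G.degree = Divisor.degree (D G) := fun G => by
    rw [H265.degree_eq_of_isIso (hD G), h.degree_ofDivisor]
  have hmem : ∀ G : {G : GlueDatum K R₀ R₁ R₀₁ // G.degree = 0},
      D G.1 ∈ Divisor.degZero (K := K) (F := F) := fun G => by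
    rw [Divisor.mem_degZero, ← hdeg]; exact G.2
  refine ⟨fun G => Pic0.mk ⟨D G.1, hmem G⟩, ?_, ?_, ?_⟩
  · intro x
    obtain ⟨⟨E, hE⟩, rfl⟩ := Pic0.mk_surjective x
    refine ⟨⟨h.ofDivisor E, by rw [h.degree_ofDivisor]; exact hE⟩, ?_⟩
    rw [pic0_mk_eq_mk_iff]
    have := h.sub_mem_principal_of_isIso (hD (h.ofDivisor E))
    have h2 := (Divisor.principal (K := K) (F := F)).neg_mem this
    rwa [neg_sub] at h2
  · intro G G'
    rw [pic0_mk_eq_mk_iff]
    constructor
    · intro hp
      exact H265.isIso_trans (hD G.1)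
        (H265.isIso_trans (h.ofDivisor_isIso_of_sub_mem_principal hp)
          (H265.isIso_symm (hD G'.1)))
    · intro hiso
      exact h.sub_mem_principal_of_isIso
        (H265.isIso_trans (H265.isIso_symm (hD G.1)) (H265.isIso_trans hiso (hD G'.1)))
  · rintro G G' G'' ⟨t⟩
    have hp := h.add_sub_mem_principal_of_tensor (hD G.1).some (hD G'.1).some (hD G'').some t
    have hdp := degree_eq_zero_of_mem_principal hp
    have hd0 : G''.degree = 0 := by
      rw [hdeg G'']
      rw [map_sub, map_add, ← hdeg G.1, ← hdeg G'.1, G.2, G'.2] at hdp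
      omega
    refine ⟨hd0, ?_⟩
    show Pic0.mk _ = Pic0.mk _ + Pic0.mk _
    rw [← Pic0.mk_add, pic0_mk_eq_mk_iff]
    have h2 := (Divisor.principal (K := K) (F := F)).neg_mem hp
    rwa [neg_sub] at h2

end Abstract

section Main

attribute [local instance] tensorAlgF tensorTowerF tensorTowerFF

/-- **PIC-CL** (exact Spec shape). -/
theorem picCl (K F : Type u) [Field K] [Field F] [Algebra K F] : Stmt.PicCl K F := by
  intro _ _ M
  letI algF : Algebra M.Ch.B₀₁ F := M.j₀₁.toRingHom.toAlgebra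
  haveI : IsScalarTower K M.Ch.B₀₁ F :=
    IsScalarTower.of_algebraMap_eq (fun a => (M.j₀₁.commutes a).symm)
  haveI : FaithfulSMul M.Ch.B₀₁ F :=
    (faithfulSMul_iff_algebraMap_injective _ _).mpr M.isFracMap.1
  haveI : IsFractionRing M.Ch.B₀₁ F := by
    refine IsFractionRing.of_field _ _ fun z => ?_
    obtain ⟨a, b, hb, hab⟩ := M.isFracMap.2 z
    exact ⟨a, b, (eq_div_iff hb).mpr hab⟩
  letI := chartAlgF (B₀₁ := M.Ch.B₀₁) F M.Ch.B₀
  letI := chartAlgF (B₀₁ := M.Ch.B₀₁) F M.Ch.B₁
  haveI := chartTowerF (B₀₁ := M.Ch.B₀₁) F M.Ch.B₀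
  haveI := chartTowerF (B₀₁ := M.Ch.B₀₁) F M.Ch.B₁
  haveI := chartTowerKF (K := K) (B₀₁ := M.Ch.B₀₁) F M.Ch.B₀
  haveI := chartTowerKF (K := K) (B₀₁ := M.Ch.B₀₁) F M.Ch.B₁
  exact (isFFCospan_chart (F := F) M.Ch.isCurveChart).exists_cl

end Main

end Fermat.Agent.S27.H970
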