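import Fermat.Agent.S27.H970.Euler
import Fermat.Agent.S37.H459.ChartGen
import Fermat.Agent.Lib.RR.H560.Hpd

/-!
# S27 / one chart of a function field (helper970)

`B` a `K`-algebra domain with fraction field `F`, finite over `K[t]` (`t ∈ B`), `t` transcendental.

* `finiteDimensional_adjoin_of_finite_aeval` : `F` is finite over `K(t)`;
* `ff1_of_finite_aeval` : `Lib.RR.FF1 K F` (for `K` algebraically closed);
* `mem_range_iff_of_finite_aeval` : for `B` integrally closed, the image of `B` in `F` is the ring
  of functions regular at all places where `t` is regular.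
-/

set_option autoImplicit false
set_option linter.unusedSectionVars false
set_option linter.style.haveILetI false
universe u

noncomputable section

open AlgebraicCurve Polynomial IntermediateField

namespace Fermat.Agent.S27.H970

open Fermat.Agent.Lib.RR

section Single

variable {K F B : Type u} [Field K] [Field F] [Algebra K F] [CommRing B] [Algebra K B]
  [Algebra B F] [IsScalarTower K B F]

/-- An element integral over a subring of a valuation ring lies in the valuation ring. -/
theorem mem_valuationSubring_of_isIntegral {L : Type*} [Field L] (O : ValuationSubring L)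
    (S : Subring L) (hS : S ≤ O.toSubring) {b : L} (hb : IsIntegral S b) : b ∈ O := by
  obtain ⟨p, hp, hev⟩ := hb
  let φ : S →+* O := Subring.inclusion hS
  have hcomp : (algebraMap O L).comp φ = algebraMap S L := by
    ext s
    rfl
  have hint : IsIntegral O b := by
    refine ⟨p.map φ, hp.map φ, ?_⟩
    rw [Polynomial.eval₂_map, hcomp]
    exact hev
  obtain ⟨y, hy⟩ := IsIntegrallyClosed.isIntegral_iff.mp hint
  rw [← hy]
  exact y.2

theorem isIntegral_adjoin_of_finite_aeval (t : B)
    (hfin : (Polynomial.aeval t : K[X] →ₐ[K] B).Finite) (b : B) :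
    IsIntegral (Algebra.adjoin K {algebraMap B F t}) (algebraMap B F b) := by
  have hint : (Polynomial.aeval t : K[X] →ₐ[K] B).toRingHom.IsIntegral :=
    RingHom.IsIntegral.of_finite hfin
  obtain ⟨p, hp, hev⟩ := hint b
  let ψ : K[X] →+* Algebra.adjoin K {algebraMap B F t} :=
    (Polynomial.aeval (⟨algebraMap B F t, Algebra.self_mem_adjoin_singleton K _⟩ :
      Algebra.adjoin K {algebraMap B F t})).toRingHom
  have hcomp : (algebraMap (Algebra.adjoin K {algebraMap B F t}) F).comp ψ =
      (algebraMap B F).comp (Polynomial.aeval t : K[X] →ₐ[K] B).toRingHom := by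
    apply Polynomial.ringHom_ext
    · intro a
      simp only [RingHom.comp_apply, AlgHom.toRingHom_eq_coe, RingHom.coe_coe, ψ,
        Polynomial.aeval_C]
      rw [← IsScalarTower.algebraMap_apply K B F]
      rfl
    · simp only [RingHom.comp_apply, AlgHom.toRingHom_eq_coe, RingHom.coe_coe, ψ,
        Polynomial.aeval_X]
      rfl
  refine ⟨p.map ψ, hp.map ψ, ?_⟩
  rw [Polynomial.eval₂_map, hcomp, ← Polynomial.hom_eval₂, hev, map_zero]

/-- Elements of `B` are regular wherever `t` is. -/
theorem ord_nonneg_of_finite_aeval (t : B)
    (hfin : (Polynomial.aeval t : K[X] →ₐ[K] B).Finite) (b : B) (v : Place K F)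
    (hv : 0 ≤ v.ord (algebraMap B F t)) : 0 ≤ v.ord (algebraMap B F b) := by
  rw [← mem_iff_ord_nonneg]
  let Ov : Subalgebra K F :=
    { v.toValuationSubring.toSubring with algebraMap_mem' := v.algebraMap_mem' }
  have hle : Algebra.adjoin K {algebraMap B F t} ≤ Ov :=
    Algebra.adjoin_le (Set.singleton_subset_iff.mpr ((mem_iff_ord_nonneg v _).mpr hv))
  refine mem_valuationSubring_of_isIntegral v.toValuationSubring
    (Algebra.adjoin K {algebraMap B F t}).toSubring (fun z hz => hle hz) ?_
  exact isIntegral_adjoin_of_finite_aeval t hfin b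

open IntermediateField.algebraAdjoinAdjoin in
/-- `F = Frac B` is finite over `K(t)` if `B` is finite over `K[t]`. -/
theorem finiteDimensional_adjoin_of_finite_aeval [IsDomain B] [IsFractionRing B F] (t : B)
    (hfin : (Polynomial.aeval t : K[X] →ₐ[K] B).Finite) :
    FiniteDimensional K⟮algebraMap B F t⟯ F := by
  classical
  letI alg : Algebra K[X] B := (Polynomial.aeval t : K[X] →ₐ[K] B).toRingHom.toAlgebra
  haveI hmf : Module.Finite K[X] B := hfin
  obtain ⟨S, hS⟩ := hmf.fg_top
  set L := K⟮algebraMap B F t⟯ with hL
  set E : IntermediateField L F := IntermediateField.adjoin L ((algebraMap B F) '' (S : Set B))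
    with hE
  have hpoly : ∀ p : K[X], algebraMap B F (Polynomial.aeval t p) ∈ E := by
    intro p
    rw [← Polynomial.aeval_algebraMap_apply]
    have : Polynomial.aeval (algebraMap B F t) p ∈ L := by
      have h1 : Polynomial.aeval (algebraMap B F t) p ∈ Algebra.adjoin K {algebraMap B F t} := by
        rw [Algebra.adjoin_singleton_eq_range_aeval]
        exact ⟨p, rfl⟩
      exact IntermediateField.algebra_adjoin_le_adjoin K _ h1
    exact E.algebraMap_mem ⟨_, this⟩
  have h1 : ∀ b : B, algebraMap B F b ∈ E := by
    intro b
    have hb : b ∈ Submodule.span K[X] (S : Set B) := by rw [hS]; trivial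
    induction hb using Submodule.span_induction with
    | mem x hx => exact IntermediateField.subset_adjoin L _ ⟨x, hx, rfl⟩
    | zero => rw [map_zero]; exact E.zero_mem
    | add x y _ _ hx hy => rw [map_add]; exact E.add_mem hx hy
    | smul p x _ hx =>
      have : p • x = Polynomial.aeval t p * x := rfl
      rw [this, map_mul]
      exact E.mul_mem (hpoly p) hx
  have h2 : E = ⊤ := by
    rw [eq_top_iff]
    intro f _
    obtain ⟨a, b, hb, rfl⟩ := IsFractionRing.div_surjective (A := B) f
    exact E.div_mem (h1 a) (h1 b)
  have h3 : FiniteDimensional L E := by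
    haveI : Finite ((algebraMap B F) '' (S : Set B)) := (S.finite_toSet.image _).to_subtype
    apply IntermediateField.finiteDimensional_adjoin
    rintro _ ⟨s, _, rfl⟩
    have := isIntegral_adjoin_of_finite_aeval (K := K) (F := F) t hfin s
    exact IsIntegral.tower_top (A := L) this
  rw [h2] at h3
  exact Module.Finite.equiv (IntermediateField.topEquiv (F := L) (E := F)).toLinearEquiv

/-- Integrality over a smaller subring implies integrality over a bigger one. -/
theorem isIntegral_subring_mono {L : Type*} [Field L] {S S' : Subring L} (hS : S ≤ S') {b : L}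
    (hb : IsIntegral S b) : IsIntegral S' b := by
  obtain ⟨p, hp, hev⟩ := hb
  let φ : S →+* S' := Subring.inclusion hS
  have hcomp : (algebraMap S' L).comp φ = algebraMap S L := by
    ext s
    rfl
  refine ⟨p.map φ, hp.map φ, ?_⟩
  rw [Polynomial.eval₂_map, hcomp]
  exact hev

/-- An element of `F` integral over the image of `B` is integral over `B`. -/
theorem isIntegral_of_isIntegral_range {f : F}
    (hf : IsIntegral (algebraMap B F).range f) : IsIntegral B f := by
  letI alg : Algebra B (algebraMap B F).range := (algebraMap B F).rangeRestrict.toAlgebra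
  haveI : IsScalarTower B (algebraMap B F).range F :=
    IsScalarTower.of_algebraMap_eq (fun _ => rfl)
  haveI : Algebra.IsIntegral B (algebraMap B F).range :=
    Algebra.IsIntegral.of_surjective (Algebra.ofId B (algebraMap B F).range)
      (algebraMap B F).rangeRestrict_surjective
  exact isIntegral_trans f hf

theorem ff1_of_finite_aeval [IsAlgClosed K] [IsDomain B] [IsFractionRing B F] (t : B)
    (hfin : (Polynomial.aeval t : K[X] →ₐ[K] B).Finite)
    (htr : Transcendental K (algebraMap B F t)) : FF1 K F :=
  haveI := finiteDimensional_adjoin_of_finite_aeval (K := K) (F := F) t hfin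
  H560.ff1 _ htr

/-- **The image of `B` in `F`** is the ring of functions regular wherever `t` is. -/
theorem mem_range_iff_of_finite_aeval [IsDomain B] [IsIntegrallyClosed B] [IsFractionRing B F]
    (t : B) (hfin : (Polynomial.aeval t : K[X] →ₐ[K] B).Finite)
    (htr : Transcendental K (algebraMap B F t)) (f : F) :
    f ∈ Set.range (algebraMap B F) ↔
      ∀ v : Place K F, 0 ≤ v.ord (algebraMap B F t) → 0 ≤ v.ord f := by
  constructor
  · rintro ⟨b, rfl⟩ v hv
    exact ord_nonneg_of_finite_aeval t hfin b v hv
  · intro hf
    haveI := finiteDimensional_adjoin_of_finite_aeval (K := K) (F := F) t hfin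
    have h1 : IsIntegral (Algebra.adjoin K {algebraMap B F t}) f :=
      Fermat.Agent.S37.H459.isIntegral_of_forall_ord_nonneg htr hf
    have hle : (Algebra.adjoin K {algebraMap B F t}).toSubring ≤ (algebraMap B F).range := by
      intro z hz
      have hz' : z ∈ Algebra.adjoin K {algebraMap B F t} := hz
      rw [Algebra.adjoin_singleton_eq_range_aeval] at hz'
      obtain ⟨p, rfl⟩ := hz'
      exact ⟨Polynomial.aeval t p, by
        rw [← Polynomial.aeval_algebraMap_apply]; rfl⟩
    have h2 : IsIntegral (algebraMap B F).range f :=
      isIntegral_subring_mono hle h1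
    exact IsIntegrallyClosed.isIntegral_iff.mp (isIntegral_of_isIntegral_range h2)

end Single

end Fermat.Agent.S27.H970
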