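import Fermat.Agent.S27.H970.Lattice
import Fermat.Agent.S25.H206.SurjGD

/-!
# S27 / PIC-CL (helper970): every gluing datum over `K` is some `O(D)`

`exists_isIso_ofDivisor` : on a function-field cospan, every gluing datum `G` is isomorphic to
`ofDivisor D` for a divisor `D`.
-/

set_option autoImplicit false
set_option linter.unusedSectionVars false
set_option linter.style.haveILetI false
universe u

noncomputable section

open AlgebraicCurve
open scoped TensorProduct

namespace Fermat.Agent.S27.H970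

open Fermat.Agent.S25 Fermat.Agent.Lib.RR Fermat.Agent.Lib.RR.H638 Fermat.Agent.Lib.RR.H623

section Congr

variable {K F : Type*} [Field K] [Field F] [Algebra K F]

theorem LOff_congr {T : Set (Place K F)} {D D' : Divisor K F}
    (hDD : ∀ v : Place K F, v ∉ T → D v = D' v) : LOff T D = LOff T D' := by
  ext f
  rw [mem_LOff, mem_LOff]
  refine forall_congr' fun v => forall_congr' fun hv => ?_
  rw [hDD v hv]

/-- `LOff T D = LOff T D'` forces `D = D'` off `T`. -/
theorem eq_of_LOff_eq [FF1 K F] (T : Finset (Place K F)) (hT : T.Nonempty)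
    {D D' : Divisor K F}
    (hDD : LOff (T : Set (Place K F)) D = LOff (T : Set (Place K F)) D')
    (v : Place K F) (hv : v ∉ T) : D v = D' v := by
  have := eq_sub_ord_of_mul T hT D D' 1 one_ne_zero
    (fun f hf => by rw [one_mul, ← hDD]; exact hf)
    (fun g hg => ⟨g, by rw [hDD]; exact hg, one_mul g⟩) v hv
  rw [this]
  simp

end Congr

section Loc

variable {K F : Type u} [Field K] [Field F] [Algebra K F]
  {R R' : Type u} [CommRing R] [CommRing R'] [Algebra R F] [Algebra R' F] [Algebra R R']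
  [IsScalarTower R R' F]

/-- If `R' = R[1/t]`, `N' = R' ⊗ N`, and the image of `N` under `θ : N' → F` is `LOff T D`, then
the image of `N'` is `LOff T' D`. -/
theorem range_eq_LOff_of_away (T T' : Set (Place K F)) (hfin : T'.Finite) (hTT' : T ⊆ T')
    (hT : ∀ (r : R) (v : Place K F), v ∉ T → 0 ≤ v.ord (algebraMap R F r))
    (hT' : ∀ (r : R') (v : Place K F), v ∉ T' → 0 ≤ v.ord (algebraMap R' F r))
    (t : R) (ht : algebraMap R F t ≠ 0)
    (ht0 : ∀ v : Place K F, v ∉ T' → v.ord (algebraMap R F t) = 0)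
    (htpos : ∀ v : Place K F, v ∈ T' → v ∉ T → 0 < v.ord (algebraMap R F t))
    [IsLocalization.Away t R']
    {N N' : Type u} [AddCommGroup N] [Module R N] [AddCommGroup N'] [Module R' N']
    [Module R N'] [IsScalarTower R R' N'] (r : N →ₗ[R] N') (hr : IsBaseChange R' r)
    (θ : N' →ₗ[R'] F) (D : Divisor K F)
    (hI : ∀ f : F, (∃ n : N, θ (r n) = f) ↔ f ∈ LOff T D) (f : F) :
    (∃ n' : N', θ n' = f) ↔ f ∈ LOff T' D := by
  haveI hloc : IsLocalizedModule (Submonoid.powers t) r :=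
    (isLocalizedModule_iff_isBaseChange (Submonoid.powers t) R' r).mpr hr
  have hs0 : ∀ s : Submonoid.powers t, algebraMap R F (s : R) ≠ 0 := by
    rintro ⟨s, n, rfl⟩
    rw [map_pow]
    exact pow_ne_zero _ ht
  have hsord : ∀ (s : Submonoid.powers t) (v : Place K F), v ∉ T' →
      v.ord (algebraMap R F (s : R)) = 0 := by
    rintro ⟨s, n, rfl⟩ v hv
    rw [map_pow, ord_pow, ht0 v hv, mul_zero]
  have hθs : ∀ (s : R) (n' : N'), θ (s • n') = algebraMap R F s * θ n' := by
    intro s n'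
    rw [← algebraMap_smul R' s n', map_smul, Algebra.smul_def,
      ← IsScalarTower.algebraMap_apply R R' F]
  constructor
  · rintro ⟨n', rfl⟩
    obtain ⟨⟨n, s⟩, hns⟩ := hloc.surj n'
    have h1 : algebraMap R F (s : R) * θ n' = θ (r n) := by
      rw [← hθs]
      exact congrArg θ hns
    have h2 : θ (r n) ∈ LOff T D := (hI _).mp ⟨n, rfl⟩
    have h3 : θ n' = (algebraMap R F (s : R))⁻¹ * θ (r n) := by
      rw [← h1, inv_mul_cancel_left₀ (hs0 s)]
    rw [h3]
    intro v hv
    have h4 : Big v 0 ((algebraMap R F (s : R))⁻¹) := by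
      right
      rw [v.ord_inv, hsord s v hv, neg_zero]
    have := h4.mul (h2 v (fun hvT => hv (hTT' hvT)))
    rwa [zero_add] at this
  · intro hf
    obtain ⟨⟨g, s⟩, hgs⟩ := (isLocalizedModule_resNR (R := R) (R' := R') T T' hfin hTT' hT hT' t ht
      ht0 htpos D).surj (⟨f, hf⟩ : ↥(NR R' T' hT' D))
    have h1 : algebraMap R F (s : R) * f = (g : F) := by
      have := congrArg Subtype.val hgs
      rw [resNR_coe] at this
      rw [← this]
      exact (coe_smul_NR' hT' D (s : R) (⟨f, hf⟩ : ↥(NR R' T' hT' D))).symm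
    obtain ⟨n, hn⟩ := (hI (g : F)).mpr g.2
    obtain ⟨u, hu⟩ := (IsLocalization.map_units R' s).exists_right_inv
    have hu' : algebraMap R F (s : R) * algebraMap R' F u = 1 := by
      rw [IsScalarTower.algebraMap_apply R R' F, ← map_mul, hu, map_one]
    refine ⟨u • r n, ?_⟩
    rw [map_smul, hn, ← h1, Algebra.smul_def, ← mul_assoc, mul_comm (algebraMap R' F u), hu',
      one_mul]

end Loc

section Cospan

variable {K F R₀ R₁ R₀₁ : Type u} [Field K] [Field F] [Algebra K F]
  [CommRing R₀] [CommRing R₁] [CommRing R₀₁] [Algebra K R₀] [Algebra K R₁] [Algebra K R₀₁]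
  [Algebra R₀ R₀₁] [Algebra R₁ R₀₁] [IsScalarTower K R₀ R₀₁] [IsScalarTower K R₁ R₀₁]
  [Algebra R₀ F] [Algebra R₁ F] [Algebra R₀₁ F]
  [IsScalarTower R₀ R₀₁ F] [IsScalarTower R₁ R₀₁ F]
  [IsScalarTower K R₀ F] [IsScalarTower K R₁ F] [IsScalarTower K R₀₁ F]
  {x₀ : R₀} {y₁ : R₁} (h : IsFFCospan K F R₀₁ x₀ y₁)

namespace IsFFCospan

include h in
theorem injective_algebraMap₀ : Function.Injective (algebraMap R₀ R₀₁) := by
  have := h.inj₀
  rw [IsScalarTower.algebraMap_eq R₀ R₀₁ F] at this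
  exact Function.Injective.of_comp this

include h in
theorem injective_algebraMap₁ : Function.Injective (algebraMap R₁ R₀₁) := by
  have := h.inj₁
  rw [IsScalarTower.algebraMap_eq R₁ R₀₁ F] at this
  exact Function.Injective.of_comp this

/-- **Classification**: every gluing datum on a function-field cospan is `O(D)`. -/
theorem exists_isIso_ofDivisor (G : GlueDatum K R₀ R₁ R₀₁) :
    ∃ D : Divisor K F, G.IsIso (h.ofDivisor D) := by
  classical
  haveI := h.ff1
  haveI := h.isDomain₀₁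
  haveI := h.frac₀₁
  haveI := h.dedekind₀
  haveI := h.dedekind₁
  haveI := h.frac₀
  haveI := h.frac₁
  haveI := h.away₀
  haveI := h.away₁
  haveI := G.invertible₀
  haveI := G.invertible₁
  haveI inv₀₁ : Module.Invertible R₀₁ G.N₀₁ :=
    Module.Invertible.congr G.isBaseChange₀.equiv
  obtain ⟨θ, hθ⟩ := exists_injective_linearMap_to_frac (R := R₀₁) (M := G.N₀₁) (F := F)
  have hr₀ := H206.r₀_injective G h.injective_algebraMap₀
  have hr₁ := H206.r₁_injective G h.injective_algebraMap₁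
  -- the two chart lattices
  let θ₀ : G.N₀ →ₗ[R₀] F := (θ.restrictScalars R₀).comp G.r₀
  let θ₁ : G.N₁ →ₗ[R₁] F := (θ.restrictScalars R₁).comp G.r₁
  have hθ₀ : Function.Injective θ₀ := hθ.comp hr₀
  have hθ₁ : Function.Injective θ₁ := hθ.comp hr₁
  haveI : Module.Invertible R₀ ↥(LinearMap.range θ₀) :=
    Module.Invertible.congr (LinearEquiv.ofInjective θ₀ hθ₀)
  haveI : Module.Invertible R₁ ↥(LinearMap.range θ₁) :=
    Module.Invertible.congr (LinearEquiv.ofInjective θ₁ hθ₁)
  obtain ⟨D0, hD0⟩ := exists_eq_LOff h.Ti h.reg₀ h.range₀' (LinearMap.range θ₀)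
  obtain ⟨D1, hD1⟩ := exists_eq_LOff h.Tz h.reg₁ h.range₁' (LinearMap.range θ₁)
  -- the lattice over the intersection, computed in two ways
  have h01a : ∀ f : F, (∃ n' : G.N₀₁, θ n' = f) ↔
      f ∈ LOff ((h.Tz : Set (Place K F)) ∪ h.Ti) D0 :=
    range_eq_LOff_of_away _ _ h.finite₀₁ h.subset₀ h.reg₀ h.reg₀₁ x₀ h.x_ne_zero
      (fun v hv => h.ord_x_eq_zero hv)
      (fun v hv hv' => by
        rw [← h.mem_Tz]
        exact Finset.mem_coe.mp (hv.resolve_right hv'))
      G.r₀ G.isBaseChange₀ θ D0 (fun f => by rw [← hD0 f]; rfl)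
  have h01b : ∀ f : F, (∃ n' : G.N₀₁, θ n' = f) ↔
      f ∈ LOff ((h.Tz : Set (Place K F)) ∪ h.Ti) D1 :=
    range_eq_LOff_of_away _ _ h.finite₀₁ h.subset₁ h.reg₁ h.reg₀₁ y₁ h.y_ne_zero
      (fun v hv => by rw [h.ord_y, h.ord_x_eq_zero hv, neg_zero])
      (fun v hv hv' => by
        have := h.mem_Ti.mp (Finset.mem_coe.mp (hv.resolve_left hv'))
        rw [h.ord_y]
        omega)
      G.r₁ G.isBaseChange₁ θ D1 (fun f => by rw [← hD1 f]; rfl)
  have hLL : LOff (((h.Tz ∪ h.Ti : Finset (Place K F)) : Set (Place K F))) D0 =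
      LOff (((h.Tz ∪ h.Ti : Finset (Place K F)) : Set (Place K F))) D1 := by
    rw [Finset.coe_union]
    ext f
    rw [← h01a f, ← h01b f]
  have hD01 : ∀ v : Place K F, v ∉ h.Tz → v ∉ h.Ti → D0 v = D1 v := fun v hz hi =>
    eq_of_LOff_eq (h.Tz ∪ h.Ti) (h.Tz_nonempty.mono Finset.subset_union_left) hLL v
      (by rw [Finset.mem_union]; tauto)
  -- the divisor
  have hfin : (Function.support (fun v => if v ∈ h.Ti then D1 v else D0 v)).Finite := by
    refine ((D0.support.finite_toSet).union (D1.support.finite_toSet)).subset fun v hv => ?_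
    rw [Function.mem_support] at hv
    by_cases hvT : v ∈ h.Ti
    · rw [if_pos hvT] at hv
      exact Or.inr (Finset.mem_coe.mpr (Finsupp.mem_support_iff.mpr hv))
    · rw [if_neg hvT] at hv
      exact Or.inl (Finset.mem_coe.mpr (Finsupp.mem_support_iff.mpr hv))
  set D : Divisor K F :=
    Finsupp.ofSupportFinite (fun v => if v ∈ h.Ti then D1 v else D0 v) hfin with hD
  have hDi : ∀ v : Place K F, v ∉ (h.Ti : Set (Place K F)) → D0 v = D v := by
    intro v hv
    rw [hD, Finsupp.ofSupportFinite_coe, if_neg (fun hh => hv (Finset.mem_coe.mpr hh))]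
  have hDz : ∀ v : Place K F, v ∉ (h.Tz : Set (Place K F)) → D1 v = D v := by
    intro v hv
    rw [hD, Finsupp.ofSupportFinite_coe]
    by_cases hvT : v ∈ h.Ti
    · rw [if_pos hvT]
    · rw [if_neg hvT]
      exact (hD01 v (fun hh => hv (Finset.mem_coe.mpr hh)) hvT).symm
  have e0 : ∀ f : F, f ∈ LinearMap.range θ₀ ↔ f ∈ NR R₀ (h.Ti : Set (Place K F)) h.reg₀ D := by
    intro f
    rw [hD0 f, LOff_congr hDi]
    rfl
  have e1 : ∀ f : F, f ∈ LinearMap.range θ₁ ↔ f ∈ NR R₁ (h.Tz : Set (Place K F)) h.reg₁ D := by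
    intro f
    rw [hD1 f, LOff_congr hDz]
    rfl
  have e01 : ∀ f : F, f ∈ LinearMap.range θ ↔
      f ∈ NR R₀₁ ((h.Tz : Set (Place K F)) ∪ h.Ti) h.reg₀₁ D := by
    intro f
    rw [LinearMap.mem_range, h01a f,
      LOff_congr (T := (h.Tz : Set (Place K F)) ∪ h.Ti) (D := D0) (D' := D)
        (fun v hv => hDi v (fun hh => hv (Or.inr hh)))]
    rfl
  refine ⟨D, ⟨{
    e₀ := (LinearEquiv.ofInjective θ₀ hθ₀).trans (LinearEquiv.ofEq _ _ (Submodule.ext e0))
    e₁ := (LinearEquiv.ofInjective θ₁ hθ₁).trans (LinearEquiv.ofEq _ _ (Submodule.ext e1))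
    e₀₁ := (LinearEquiv.ofInjective θ hθ).trans (LinearEquiv.ofEq _ _ (Submodule.ext e01))
    comm₀ := fun s => rfl
    comm₁ := fun s => rfl }⟩⟩

end IsFFCospan

end Cospan

end Fermat.Agent.S27.H970
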