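import Fermat.Agent.Lib.RR.H638.CechFun
import Fermat.Agent.Lib.RR.H623.WeakApprox
import Fermat.Agent.Lib.RR.Adeles

/-!
# S27 / twisted Čech formula (helper970)

For a function field `F / K` (`FF1 K F`), a divisor `D` and two disjoint nonempty finite sets of
places `Tz`, `Ti`, put `LOff T D = {f | ∀ v ∉ T, f = 0 ∨ -D v ≤ ord_v f}` (sections of `O(D)` on the
complement of `T`).  Then

* `LOff Ti D ⊓ LOff Tz D = L(D)`                                         (`LOff_inf_eq`),
* `LOff (Tz ∪ Ti) D / (LOff Ti D + LOff Tz D)` is finite-dimensional of dimension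
  `ℓ(D) - deg D - 1 + g`                                                  (`finrank_twisted_cech`).

This is the twisted version of `Lib.RR.H638.finrank_cech_map` (`D = 0`).
-/

set_option autoImplicit false

noncomputable section

open AlgebraicCurve

namespace Fermat.Agent.S27.H970

open Fermat.Agent.Lib.RR Fermat.Agent.Lib.RR.H638 Fermat.Agent.Lib.RR.H623

variable {K F : Type*} [Field K] [Field F] [Algebra K F]

/-- Sections of `O(D)` over the complement of `T`:
functions `f` with `ord_v f ≥ -D v` at all places `v ∉ T`. -/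
def LOff (T : Set (Place K F)) (D : Divisor K F) : Submodule K F where
  carrier := {f | ∀ v : Place K F, v ∉ T → Big v (-D v) f}
  zero_mem' := fun v _ => Big.zero v _
  add_mem' := fun hf hg v hv => (hf v hv).add (hg v hv)
  smul_mem' := by
    intro c f hf v hv
    rw [Algebra.smul_def]
    have h1 : Big v 0 (algebraMap K F c) := Or.inr (by rw [ord_algebraMap])
    have := h1.mul (hf v hv)
    rwa [zero_add] at this

theorem mem_LOff {T : Set (Place K F)} {D : Divisor K F} {f : F} :
    f ∈ LOff T D ↔ ∀ v : Place K F, v ∉ T → Big v (-D v) f := Iff.rfl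

theorem LOff_mono {T T' : Set (Place K F)} (h : T ⊆ T') (D : Divisor K F) :
    LOff T D ≤ LOff T' D :=
  fun _ hf v hv => hf v (fun hvT => hv (h hvT))

theorem LOff_empty (D : Divisor K F) : LOff (∅ : Set (Place K F)) D = riemannRochSpace D := by
  ext f
  rw [mem_LOff, mem_L_iff]
  exact ⟨fun h v => h v (Set.notMem_empty v), fun h v _ => h v⟩

theorem L_le_LOff (T : Set (Place K F)) (D : Divisor K F) : riemannRochSpace D ≤ LOff T D := by
  rw [← LOff_empty]
  exact LOff_mono (Set.empty_subset T) D

section Cech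

variable (Tz Ti : Finset (Place K F)) (D : Divisor K F)

theorem L_add_le_LOff (T : Finset (Place K F)) (n : ℕ) :
    riemannRochSpace (D + n • divT T) ≤ LOff (T : Set (Place K F)) D := by
  intro f hf v hv
  have hv' : v ∉ T := fun h => hv (Finset.mem_coe.mpr h)
  have := mem_L_iff.mp hf v
  simpa [divT_apply_not_mem hv', Big] using this

theorem LM_le_LOff (n : ℕ) :
    riemannRochSpace (D + divM Tz Ti n) ≤ LOff ((Tz : Set (Place K F)) ∪ Ti) D := by
  intro f hf v hv
  have hvz : v ∉ Tz := fun h => hv (Or.inl (Finset.mem_coe.mpr h))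
  have hvi : v ∉ Ti := fun h => hv (Or.inr (Finset.mem_coe.mpr h))
  have := mem_L_iff.mp hf v
  simpa [divM_apply, divT_apply_not_mem hvz, divT_apply_not_mem hvi, Big] using this

theorem add_divM_mono {m n : ℕ} (h : m ≤ n) : D + divM Tz Ti m ≤ D + divM Tz Ti n :=
  add_le_add le_rfl (divM_mono Tz Ti h)

theorem exists_mem_LM_of_mem_LOff {f : F}
    (hf : f ∈ LOff ((Tz : Set (Place K F)) ∪ Ti) D) :
    ∃ n : ℕ, f ∈ riemannRochSpace (D + divM Tz Ti n) := by
  classical
  by_cases hf0 : f = 0
  · exact ⟨0, hf0 ▸ Submodule.zero_mem _⟩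
  refine ⟨∑ v ∈ Tz ∪ Ti, (v.ord f + D v).natAbs, ?_⟩
  rw [mem_L_iff]
  intro v
  right
  rw [Finsupp.add_apply, divM_apply]
  have hz := divT_nonneg Tz v
  have hi := divT_nonneg Ti v
  by_cases hv : v ∈ Tz ∪ Ti
  · have h1 : (v.ord f + D v).natAbs ≤ ∑ w ∈ Tz ∪ Ti, (w.ord f + D w).natAbs :=
      Finset.single_le_sum (f := fun w => (w.ord f + D w).natAbs) (fun _ _ => Nat.zero_le _) hv
    have h2 : (1 : ℤ) ≤ divT Tz v + divT Ti v := by
      rcases Finset.mem_union.mp hv with h | h
      · rw [divT_apply_mem h]; omega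
      · rw [divT_apply_mem h]; omega
    set N : ℕ := ∑ w ∈ Tz ∪ Ti, (w.ord f + D w).natAbs with hN
    have h3 : ((v.ord f + D v).natAbs : ℤ) ≤ (N : ℤ) := by exact_mod_cast h1
    have h4 : (N : ℤ) ≤ N * divT Tz v + N * divT Ti v := by
      have : (0 : ℤ) ≤ N := Int.natCast_nonneg N
      nlinarith
    have h5 : -(v.ord f + D v) ≤ ((v.ord f + D v).natAbs : ℤ) := by
      rw [Int.natCast_natAbs]; exact neg_le_abs _
    omega
  · have hvz : v ∉ Tz := fun h => hv (Finset.mem_union_left _ h)
    have hvi : v ∉ Ti := fun h => hv (Finset.mem_union_right _ h)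
    have := (hf v (by
      rintro (h | h)
      · exact hvz (Finset.mem_coe.mp h)
      · exact hvi (Finset.mem_coe.mp h))).le_ord hf0
    rw [divT_apply_not_mem hvz, divT_apply_not_mem hvi]
    omega

theorem add_nsmul_divT_le_add_divM_right (n : ℕ) : D + n • divT Ti ≤ D + divM Tz Ti n :=
  add_le_add le_rfl (nsmul_divT_le_divM_right Tz Ti n)

theorem add_nsmul_divT_le_add_divM_left (n : ℕ) : D + n • divT Tz ≤ D + divM Tz Ti n :=
  add_le_add le_rfl (nsmul_divT_le_divM_left Tz Ti n)

/-- Key separation, twisted. -/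
theorem sup_inf_LD_le (hdisj : Disjoint Tz Ti) (n : ℕ) :
    (LOff (Ti : Set (Place K F)) D ⊔ LOff (Tz : Set (Place K F)) D) ⊓
        riemannRochSpace (D + divM Tz Ti n) ≤
      riemannRochSpace (D + n • divT Ti) ⊔ riemannRochSpace (D + n • divT Tz) := by
  classical
  rintro f ⟨hf1, hf2⟩
  obtain ⟨a, ha, b, hb, rfl⟩ := Submodule.mem_sup.mp hf1
  have ha' : ∀ v : Place K F, v ∉ Ti → Big v (-D v) a := fun v hv =>
    ha v (fun h => hv (Finset.mem_coe.mp h))
  have hb' : ∀ v : Place K F, v ∉ Tz → Big v (-D v) b := fun v hv =>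
    hb v (fun h => hv (Finset.mem_coe.mp h))
  have hab : ∀ v : Place K F, Big v (-(D v + divM Tz Ti n v)) (a + b) := by
    intro v
    have := mem_L_iff.mp hf2 v
    simpa [Big] using this
  refine Submodule.add_mem_sup ?_ ?_
  · rw [mem_L_iff]; intro v
    by_cases hv : v ∈ Ti
    · have hv0 : v ∉ Tz := Finset.disjoint_right.mp hdisj hv
      have h1 := hab v
      rw [divM_apply, divT_apply_mem hv, divT_apply_not_mem hv0] at h1
      have h2 : Big v (-(D v + n)) (a + b - b) :=
        (h1.mono (by simp)).sub ((hb' v hv0).mono (by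
          have : (0 : ℤ) ≤ n := Int.natCast_nonneg n
          omega))
      rw [add_sub_cancel_right] at h2
      simpa [Big, divT_apply_mem hv] using h2
    · have := ha' v hv
      simpa [Big, divT_apply_not_mem hv] using this
  · rw [mem_L_iff]; intro v
    by_cases hv : v ∈ Tz
    · have hv0 : v ∉ Ti := Finset.disjoint_left.mp hdisj hv
      have h1 := hab v
      rw [divM_apply, divT_apply_mem hv, divT_apply_not_mem hv0] at h1
      have h2 : Big v (-(D v + n)) (a + b - a) :=
        (h1.mono (by simp)).sub ((ha' v hv0).mono (by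
          have : (0 : ℤ) ≤ n := Int.natCast_nonneg n
          omega))
      rw [add_sub_cancel_left] at h2
      simpa [Big, divT_apply_mem hv] using h2
    · have := hb' v hv
      simpa [Big, divT_apply_not_mem hv] using this

theorem sup_inf_LD_eq (hdisj : Disjoint Tz Ti) (n : ℕ) :
    (LOff (Ti : Set (Place K F)) D ⊔ LOff (Tz : Set (Place K F)) D) ⊓
        riemannRochSpace (D + divM Tz Ti n) =
      riemannRochSpace (D + n • divT Ti) ⊔ riemannRochSpace (D + n • divT Tz) := by
  apply le_antisymm (sup_inf_LD_le Tz Ti D hdisj n)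
  exact le_inf (sup_le_sup (L_add_le_LOff D Ti n) (L_add_le_LOff D Tz n))
    (sup_le (L_mono (add_nsmul_divT_le_add_divM_right Tz Ti D n))
      (L_mono (add_nsmul_divT_le_add_divM_left Tz Ti D n)))

/-- `LOff Ti D ⊓ LOff Tz D = L(D)` for disjoint `Tz`, `Ti`. -/
theorem LOff_inf_eq (hdisj : Disjoint Tz Ti) :
    LOff (Ti : Set (Place K F)) D ⊓ LOff (Tz : Set (Place K F)) D = riemannRochSpace D := by
  apply le_antisymm
  · rintro f ⟨h1, h2⟩
    rw [mem_L_iff]
    intro v
    by_cases hv : v ∈ Ti
    · have hv0 : v ∉ Tz := Finset.disjoint_right.mp hdisj hv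
      exact h2 v (fun h => hv0 (Finset.mem_coe.mp h))
    · exact h1 v (fun h => hv (Finset.mem_coe.mp h))
  · exact le_inf (L_le_LOff _ D) (L_le_LOff _ D)

/-- `L(D + n Ti) ∩ L(D + n Tz) = L(D)`. -/
theorem LD_inf_eq (hdisj : Disjoint Tz Ti) (n : ℕ) :
    riemannRochSpace (D + n • divT Ti) ⊓ riemannRochSpace (D + n • divT Tz) =
      riemannRochSpace D := by
  classical
  apply le_antisymm
  · rintro f ⟨h1, h2⟩
    rw [mem_L_iff]
    intro v
    by_cases hv : v ∈ Ti
    · have hv0 : v ∉ Tz := Finset.disjoint_right.mp hdisj hv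
      have := mem_L_iff.mp h2 v
      simpa [divT_apply_not_mem hv0] using this
    · have := mem_L_iff.mp h1 v
      simpa [divT_apply_not_mem hv] using this
  · refine le_inf (L_mono ?_) (L_mono ?_)
    · rw [Finsupp.le_def]; intro v
      have h0 := divT_nonneg Ti v
      rw [Finsupp.add_apply, Finsupp.smul_apply, nsmul_eq_mul]
      have : (0 : ℤ) ≤ n * divT Ti v := by positivity
      omega
    · rw [Finsupp.le_def]; intro v
      have h0 := divT_nonneg Tz v
      rw [Finsupp.add_apply, Finsupp.smul_apply, nsmul_eq_mul]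
      have : (0 : ℤ) ≤ n * divT Tz v := by positivity
      omega

end Cech

section Main

variable [FF1 K F] (Tz Ti : Finset (Place K F)) (D : Divisor K F)

/-- The index of speciality `i(D) = ℓ(D) - deg D - 1 + g ≥ 0` as a natural number. -/
def specIndex (D : Divisor K F) : ℕ :=
  ((ell D : ℤ) - Divisor.degree D - 1 + (genusFF K F : ℤ)).toNat

theorem specIndex_eq (D : Divisor K F) :
    (specIndex D : ℤ) = (ell D : ℤ) - Divisor.degree D - 1 + (genusFF K F : ℤ) := by
  unfold specIndex
  have := riemann_inequality_genusFF D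
  rw [Int.toNat_of_nonneg (by omega)]

/-- **Twisted Čech formula** (image form). -/
theorem finrank_twisted_cech (hdisj : Disjoint Tz Ti) (hz : Tz.Nonempty) (hi : Ti.Nonempty) :
    Module.Finite K ↥((LOff ((Tz : Set (Place K F)) ∪ Ti) D).map
        (LOff (Ti : Set (Place K F)) D ⊔ LOff (Tz : Set (Place K F)) D).mkQ) ∧
      Module.finrank K ↥((LOff ((Tz : Set (Place K F)) ∪ Ti) D).map
        (LOff (Ti : Set (Place K F)) D ⊔ LOff (Tz : Set (Place K F)) D).mkQ) = specIndex D := by
  obtain ⟨c, hc⟩ : ∃ c : ℤ, ∀ D : Divisor K F, c ≤ Divisor.degree D →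
      (ell D : ℤ) = Divisor.degree D + 1 - (genusFF K F : ℤ) := by
    rw [genusFF_eq_genusR]
    exact exists_degree_bound (K := K) (F := F)
  have hz1 : 1 ≤ Tz.card := Finset.card_pos.mpr hz
  have hi1 : 1 ≤ Ti.card := Finset.card_pos.mpr hi
  refine finrank_map_mkQ_of_exhaust _ _ (fun n => riemannRochSpace (D + divM Tz Ti n))
    (fun m n h => L_mono (add_divM_mono Tz Ti D h)) (fun n => inferInstance)
    (fun n => LM_le_LOff Tz Ti D n) (fun f hf => exists_mem_LM_of_mem_LOff Tz Ti D hf)
    (specIndex D) (c - Divisor.degree D).toNat ?_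
  intro n hn
  have hcn : c - Divisor.degree D ≤ n := by
    have := Int.self_le_toNat (c - Divisor.degree D)
    have : (((c - Divisor.degree D).toNat : ℕ) : ℤ) ≤ (n : ℤ) := by exact_mod_cast hn
    omega
  have hnn : (0 : ℤ) ≤ n := Int.natCast_nonneg n
  have hzc : (n : ℤ) ≤ n * Tz.card := by
    have : (1 : ℤ) ≤ Tz.card := by exact_mod_cast hz1
    nlinarith
  have hic : (n : ℤ) ≤ n * Ti.card := by
    have : (1 : ℤ) ≤ Ti.card := by exact_mod_cast hi1
    nlinarith
  have d1 : Divisor.degree (D + n • divT Ti) = Divisor.degree D + n * Ti.card := by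
    rw [map_add, degree_nsmul_divT]
  have d2 : Divisor.degree (D + n • divT Tz) = Divisor.degree D + n * Tz.card := by
    rw [map_add, degree_nsmul_divT]
  have d3 : Divisor.degree (D + divM Tz Ti n) =
      Divisor.degree D + (n * Tz.card + n * Ti.card) := by
    rw [map_add, degree_divM]
  have e1 := hc (D + n • divT Ti) (by rw [d1]; omega)
  have e2 := hc (D + n • divT Tz) (by rw [d2]; omega)
  have e3 := hc (D + divM Tz Ti n) (by rw [d3]; omega)
  rw [d1] at e1
  rw [d2] at e2
  rw [d3] at e3
  rw [sup_inf_LD_eq Tz Ti D hdisj n]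
  have h4 := Submodule.finrank_sup_add_finrank_inf_eq (riemannRochSpace (D + n • divT Ti))
    (riemannRochSpace (D + n • divT Tz))
  rw [LD_inf_eq Tz Ti D hdisj n] at h4
  have hs := specIndex_eq D
  unfold ell at e1 e2 e3 hs
  have h6 : (Module.finrank K
        ↥(riemannRochSpace (D + n • divT Ti) ⊔ riemannRochSpace (D + n • divT Tz)) : ℤ)
      + Module.finrank K ↥(riemannRochSpace D) =
        Module.finrank K ↥(riemannRochSpace (D + n • divT Ti)) +
        Module.finrank K ↥(riemannRochSpace (D + n • divT Tz)) := by exact_mod_cast h4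
  have h7 : (Module.finrank K ↥(riemannRochSpace (D + divM Tz Ti n)) : ℤ) =
      Module.finrank K
        ↥(riemannRochSpace (D + n • divT Ti) ⊔ riemannRochSpace (D + n • divT Tz)) +
        specIndex D := by
    rw [e3]; linarith
  exact_mod_cast h7

end Main

end Fermat.Agent.S27.H970
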