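import Fermat.Agent.S25.DefsAlg
import Fermat.Agent.S25.H207.Omega
import Fermat.Agent.S27.H970.TwistCech

/-!
# S27 / function-field cospans and the gluing datum `O(D)` (helper970)

A *function-field cospan*: a cospan of `K`-algebras `R₀ → R₀₁ ← R₁` mapping to the
function field `F / K`, whose images are the rings of functions regular on the charts
`x ≠ ∞`, `x ≠ 0` of a nonconstant function `x`, `R₀₁ = R₀[1/x] = R₁[x]`.

For a divisor `D` we construct the gluing datum `ofDivisor h D` (`= O(D)`), whose modules are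
`N_i = {f ∈ F | ∀ v on chart i, f = 0 ∨ -D v ≤ ord_v f}`.
-/

set_option autoImplicit false
set_option linter.unusedSectionVars false
set_option linter.style.haveILetI false
universe u

noncomputable section

open AlgebraicCurve

namespace Fermat.Agent.S27.H970

open Fermat.Agent.S25 Fermat.Agent.Lib.RR Fermat.Agent.Lib.RR.H638 Fermat.Agent.Lib.RR.H623

variable (K F : Type u) {R₀ R₁ : Type u} (R₀₁ : Type u) [Field K] [Field F] [Algebra K F]
  [CommRing R₀] [CommRing R₁] [CommRing R₀₁] [Algebra K R₀] [Algebra K R₁] [Algebra K R₀₁]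
  [Algebra R₀ R₀₁] [Algebra R₁ R₀₁] [IsScalarTower K R₀ R₀₁] [IsScalarTower K R₁ R₀₁]
  [Algebra R₀ F] [Algebra R₁ F] [Algebra R₀₁ F]
  [IsScalarTower R₀ R₀₁ F] [IsScalarTower R₁ R₀₁ F]
  [IsScalarTower K R₀ F] [IsScalarTower K R₁ F] [IsScalarTower K R₀₁ F]

/-- The cospan `R₀ → R₀₁ ← R₁` realises inside `F` the two charts `x ≠ ∞`, `x ≠ 0` of the
nonconstant function `x = x₀`, with `y₁ = 1 / x`. -/
structure IsFFCospan (x₀ : R₀) (y₁ : R₁) : Prop where
  ff1 : FF1 K F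
  x_nonconst : algebraMap R₀ F x₀ ∉ Set.range (algebraMap K F)
  mul_eq_one : algebraMap R₀ F x₀ * algebraMap R₁ F y₁ = 1
  range₀ : ∀ f : F, f ∈ Set.range (algebraMap R₀ F) ↔
    ∀ v : Place K F, 0 ≤ v.ord (algebraMap R₀ F x₀) → 0 ≤ v.ord f
  range₁ : ∀ f : F, f ∈ Set.range (algebraMap R₁ F) ↔
    ∀ v : Place K F, v.ord (algebraMap R₀ F x₀) ≤ 0 → 0 ≤ v.ord f
  dedekind₀ : IsDedekindDomain R₀
  dedekind₁ : IsDedekindDomain R₁
  frac₀ : IsFractionRing R₀ F
  frac₁ : IsFractionRing R₁ F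
  away₀ : IsLocalization.Away x₀ R₀₁
  away₁ : IsLocalization.Away y₁ R₀₁

variable {K F R₀₁}

namespace IsFFCospan

variable {x₀ : R₀} {y₁ : R₁} (h : IsFFCospan K F R₀₁ x₀ y₁)

include h

theorem x_ne_zero : algebraMap R₀ F x₀ ≠ 0 := fun h0 =>
  h.x_nonconst ⟨0, by rw [map_zero, h0]⟩

theorem inj₀ : Function.Injective (algebraMap R₀ F) :=
  haveI := h.frac₀
  haveI := h.dedekind₀
  IsFractionRing.injective R₀ F

theorem inj₁ : Function.Injective (algebraMap R₁ F) :=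
  haveI := h.frac₁
  haveI := h.dedekind₁
  IsFractionRing.injective R₁ F

theorem y_eq : algebraMap R₁ F y₁ = (algebraMap R₀ F x₀)⁻¹ :=
  eq_inv_of_mul_eq_one_right h.mul_eq_one

/-- The zeros of `x`. -/
def Tz : Finset (Place K F) :=
  haveI := h.ff1
  zerosOf (K := K) (algebraMap R₀ F x₀) h.x_ne_zero

/-- The poles of `x`. -/
def Ti : Finset (Place K F) :=
  haveI := h.ff1
  polesOf (K := K) (algebraMap R₀ F x₀) h.x_ne_zero

theorem mem_Tz {v : Place K F} : v ∈ h.Tz ↔ 0 < v.ord (algebraMap R₀ F x₀) :=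
  haveI := h.ff1
  mem_zerosOf

theorem mem_Ti {v : Place K F} : v ∈ h.Ti ↔ v.ord (algebraMap R₀ F x₀) < 0 :=
  haveI := h.ff1
  mem_polesOf

theorem disjoint : Disjoint h.Tz h.Ti :=
  haveI := h.ff1
  disjoint_zerosOf_polesOf _ _

theorem Tz_nonempty : h.Tz.Nonempty :=
  haveI := h.ff1
  zerosOf_nonempty _ h.x_nonconst

theorem Ti_nonempty : h.Ti.Nonempty :=
  haveI := h.ff1
  polesOf_nonempty _ h.x_nonconst

theorem reg₀ (r : R₀) (v : Place K F) (hv : v ∉ (h.Ti : Set (Place K F))) :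
    0 ≤ v.ord (algebraMap R₀ F r) := by
  refine (h.range₀ _).mp ⟨r, rfl⟩ v ?_
  rw [Finset.mem_coe, h.mem_Ti] at hv
  omega

theorem reg₁ (r : R₁) (v : Place K F) (hv : v ∉ (h.Tz : Set (Place K F))) :
    0 ≤ v.ord (algebraMap R₁ F r) := by
  refine (h.range₁ _).mp ⟨r, rfl⟩ v ?_
  rw [Finset.mem_coe, h.mem_Tz] at hv
  omega

theorem ord_x_eq_zero {v : Place K F} (hv : v ∉ (h.Tz : Set (Place K F)) ∪ h.Ti) :
    v.ord (algebraMap R₀ F x₀) = 0 := by
  rw [Set.mem_union, Finset.mem_coe, Finset.mem_coe, h.mem_Tz, h.mem_Ti] at hv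
  omega

theorem algebraMap₀₁_x : algebraMap R₀₁ F (algebraMap R₀ R₀₁ x₀) = algebraMap R₀ F x₀ :=
  (IsScalarTower.algebraMap_apply R₀ R₀₁ F x₀).symm

theorem reg₀₁ (r : R₀₁) (v : Place K F) (hv : v ∉ (h.Tz : Set (Place K F)) ∪ h.Ti) :
    0 ≤ v.ord (algebraMap R₀₁ F r) := by
  haveI := h.away₀
  obtain ⟨⟨a, s⟩, hr⟩ := IsLocalization.surj (Submonoid.powers x₀) r
  obtain ⟨n, hn⟩ := s.2
  have h1 : algebraMap R₀₁ F r * (algebraMap R₀ F x₀) ^ n = algebraMap R₀ F a := by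
    have := congrArg (algebraMap R₀₁ F) hr
    rw [map_mul, ← IsScalarTower.algebraMap_apply R₀ R₀₁ F,
      ← IsScalarTower.algebraMap_apply R₀ R₀₁ F] at this
    rw [← this]
    simp only [← hn, map_pow]
  have hx0 := h.ord_x_eq_zero hv
  have ha : 0 ≤ v.ord (algebraMap R₀ F a) :=
    h.reg₀ a v (fun hv' => hv (Or.inr hv'))
  by_cases hr0 : algebraMap R₀₁ F r = 0
  · rw [hr0, v.ord_zero]
  · rw [← h1, v.ord_mul hr0 (pow_ne_zero _ h.x_ne_zero), ord_pow, hx0, mul_zero,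
      add_zero] at ha
    exact ha

theorem range₀' (f : F) (hf : ∀ v : Place K F, v ∉ (h.Ti : Set (Place K F)) → 0 ≤ v.ord f) :
    f ∈ Set.range (algebraMap R₀ F) := by
  refine (h.range₀ f).mpr fun v hv => hf v ?_
  rw [Finset.mem_coe, h.mem_Ti]
  omega

theorem range₁' (f : F) (hf : ∀ v : Place K F, v ∉ (h.Tz : Set (Place K F)) → 0 ≤ v.ord f) :
    f ∈ Set.range (algebraMap R₁ F) := by
  refine (h.range₁ f).mpr fun v hv => hf v ?_
  rw [Finset.mem_coe, h.mem_Tz]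
  omega

end IsFFCospan

end Fermat.Agent.S27.H970
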