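import Fermat.Agent.S27.H970.OfDivisor
import Fermat.Agent.S25.H265.GDCDeg

/-!
# S27 / cohomology of `O(D)` on a function-field cospan (helper970)

* `finrank_H0_ofDivisor` : `dim Ȟ⁰(O(D)) = ℓ(D)`;
* `finrank_H1_ofDivisor` : `dim Ȟ¹(O(D)) = ℓ(D) - deg D - 1 + g`;
* `euler_ofDivisor`      : `χ(O(D)) = deg D + 1 - g`   (Riemann–Roch);
* `unitIso`              : `O ≅ O(0)`;
* `finrank_H1_unit`      : **GENUS** `dim Ȟ¹(O) = genusFF K F`;
* `degree_ofDivisor`     : `deg O(D) = deg D`.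
-/

set_option autoImplicit false
set_option linter.unusedSectionVars false
set_option linter.style.haveILetI false
universe u

noncomputable section

open AlgebraicCurve

namespace Fermat.Agent.S27.H970

open Fermat.Agent.S25 Fermat.Agent.Lib.RR Fermat.Agent.Lib.RR.H638 Fermat.Agent.Lib.RR.H623

variable {K F R₀ R₁ R₀₁ : Type u} [Field K] [Field F] [Algebra K F]
  [CommRing R₀] [CommRing R₁] [CommRing R₀₁] [Algebra K R₀] [Algebra K R₁] [Algebra K R₀₁]
  [Algebra R₀ R₀₁] [Algebra R₁ R₀₁] [IsScalarTower K R₀ R₀₁] [IsScalarTower K R₁ R₀₁]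
  [Algebra R₀ F] [Algebra R₁ F] [Algebra R₀₁ F]
  [IsScalarTower R₀ R₀₁ F] [IsScalarTower R₁ R₀₁ F]
  [IsScalarTower K R₀ F] [IsScalarTower K R₁ F] [IsScalarTower K R₀₁ F]
  {x₀ : R₀} {y₁ : R₁} (h : IsFFCospan K F R₀₁ x₀ y₁)

namespace IsFFCospan

/-- The value in `F` of a section over the intersection, `K`-linear. -/
def val₀₁ (D : Divisor K F) : (h.ofDivisor D).N₀₁ →ₗ[K] F where
  toFun f := (f : ↥(NR R₀₁ ((h.Tz : Set (Place K F)) ∪ h.Ti) h.reg₀₁ D)).1
  map_add' _ _ := rfl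
  map_smul' _ _ := rfl

/-- The value in `F` of a section over the chart `0`, `K`-linear. -/
def val₀ (D : Divisor K F) : (h.ofDivisor D).N₀ →ₗ[K] F where
  toFun f := (f : ↥(NR R₀ (h.Ti : Set (Place K F)) h.reg₀ D)).1
  map_add' _ _ := rfl
  map_smul' _ _ := rfl

/-- The value in `F` of a section over the chart `1`, `K`-linear. -/
def val₁ (D : Divisor K F) : (h.ofDivisor D).N₁ →ₗ[K] F where
  toFun f := (f : ↥(NR R₁ (h.Tz : Set (Place K F)) h.reg₁ D)).1
  map_add' _ _ := rfl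
  map_smul' _ _ := rfl

theorem val₀₁_injective (D : Divisor K F) : Function.Injective (h.val₀₁ D) :=
  fun _ _ hab => Subtype.ext hab

theorem val₀_injective (D : Divisor K F) : Function.Injective (h.val₀ D) :=
  fun _ _ hab => Subtype.ext hab

theorem val₁_injective (D : Divisor K F) : Function.Injective (h.val₁ D) :=
  fun _ _ hab => Subtype.ext hab

theorem range_val₀₁ (D : Divisor K F) :
    LinearMap.range (h.val₀₁ D) = LOff ((h.Tz : Set (Place K F)) ∪ h.Ti) D := by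
  ext f
  constructor
  · rintro ⟨g, rfl⟩
    exact g.2
  · intro hf
    exact ⟨⟨f, hf⟩, rfl⟩

theorem range_val₀ (D : Divisor K F) :
    LinearMap.range (h.val₀ D) = LOff (h.Ti : Set (Place K F)) D := by
  ext f
  constructor
  · rintro ⟨g, rfl⟩
    exact g.2
  · intro hf
    exact ⟨⟨f, hf⟩, rfl⟩

theorem range_val₁ (D : Divisor K F) :
    LinearMap.range (h.val₁ D) = LOff (h.Tz : Set (Place K F)) D := by
  ext f
  constructor
  · rintro ⟨g, rfl⟩
    exact g.2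
  · intro hf
    exact ⟨⟨f, hf⟩, rfl⟩

theorem val₀₁_cech (D : Divisor K F) (s : (h.ofDivisor D).N₀ × (h.ofDivisor D).N₁) :
    h.val₀₁ D ((h.ofDivisor D).cech s) = h.val₀ D s.1 - h.val₁ D s.2 := by
  obtain ⟨s₀, s₁⟩ := s
  simp only [GlueDatum.cech, LinearMap.coprod_apply, LinearMap.neg_apply,
    LinearMap.restrictScalars_apply, map_add, map_neg]
  rw [sub_eq_add_neg]
  rfl

/-- `Ȟ⁰(O(D)) → F`, injective with image `L(D)`. -/
def valH0 (D : Divisor K F) : (h.ofDivisor D).H0 →ₗ[K] F :=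
  (h.val₀ D).comp ((LinearMap.fst K _ _).comp (h.ofDivisor D).H0.subtype)

theorem valH0_injective (D : Divisor K F) : Function.Injective (h.valH0 D) := by
  rw [← LinearMap.ker_eq_bot, LinearMap.ker_eq_bot']
  rintro ⟨⟨s₀, s₁⟩, hs⟩ h0
  have h1 : h.val₀ D s₀ = 0 := h0
  have h2 : h.val₀ D s₀ - h.val₁ D s₁ = 0 := by
    rw [← h.val₀₁_cech D (s₀, s₁)]
    have : (h.ofDivisor D).cech (s₀, s₁) = 0 := hs
    rw [this, map_zero]
  have h3 : h.val₁ D s₁ = 0 := by rw [h1, zero_sub, neg_eq_zero] at h2; exact h2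
  have e0 : s₀ = 0 := h.val₀_injective D (by rw [h1, map_zero])
  have e1 : s₁ = 0 := h.val₁_injective D (by rw [h3, map_zero])
  apply Subtype.ext
  show (s₀, s₁) = 0
  rw [e0, e1]; rfl

theorem range_valH0 (D : Divisor K F) :
    LinearMap.range (h.valH0 D) = riemannRochSpace D := by
  rw [← LOff_inf_eq h.Tz h.Ti D h.disjoint]
  ext f
  constructor
  · rintro ⟨⟨⟨s₀, s₁⟩, hs⟩, rfl⟩
    have h2 : h.val₀ D s₀ - h.val₁ D s₁ = 0 := by
      rw [← h.val₀₁_cech D (s₀, s₁)]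
      have : (h.ofDivisor D).cech (s₀, s₁) = 0 := hs
      rw [this, map_zero]
    have h3 : h.val₀ D s₀ = h.val₁ D s₁ := sub_eq_zero.mp h2
    refine ⟨?_, ?_⟩
    · exact (s₀ : ↥(NR R₀ (h.Ti : Set (Place K F)) h.reg₀ D)).2
    · show h.val₀ D s₀ ∈ _
      rw [h3]
      exact (s₁ : ↥(NR R₁ (h.Tz : Set (Place K F)) h.reg₁ D)).2
  · rintro ⟨hf0, hf1⟩
    let s₀ : (h.ofDivisor D).N₀ := (⟨f, hf0⟩ : ↥(NR R₀ (h.Ti : Set (Place K F)) h.reg₀ D))
    let s₁ : (h.ofDivisor D).N₁ := (⟨f, hf1⟩ : ↥(NR R₁ (h.Tz : Set (Place K F)) h.reg₁ D))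
    have hs : (s₀, s₁) ∈ (h.ofDivisor D).H0 := by
      rw [LinearMap.mem_ker]
      apply h.val₀₁_injective D
      rw [h.val₀₁_cech, map_zero]
      exact sub_self f
    exact ⟨⟨(s₀, s₁), hs⟩, rfl⟩

theorem finrank_H0_ofDivisor (D : Divisor K F) :
    Module.finrank K (h.ofDivisor D).H0 = ell D := by
  rw [← LinearMap.finrank_range_of_inj (h.valH0_injective D), h.range_valH0 D]
  rfl

/-- `N₀₁ → F ⧸ (N₀ + N₁)`. -/
def valH1 (D : Divisor K F) : (h.ofDivisor D).N₀₁ →ₗ[K]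
    F ⧸ (LOff (h.Ti : Set (Place K F)) D ⊔ LOff (h.Tz : Set (Place K F)) D) :=
  (LOff (h.Ti : Set (Place K F)) D ⊔ LOff (h.Tz : Set (Place K F)) D).mkQ.comp (h.val₀₁ D)

theorem ker_valH1 (D : Divisor K F) :
    LinearMap.ker (h.valH1 D) = LinearMap.range (h.ofDivisor D).cech := by
  ext g
  rw [LinearMap.mem_ker, valH1, LinearMap.comp_apply, Submodule.mkQ_apply,
    Submodule.Quotient.mk_eq_zero, LinearMap.mem_range]
  constructor
  · intro hg
    obtain ⟨a, ha, b, hb, hab⟩ := Submodule.mem_sup.mp hg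
    let s₀ : (h.ofDivisor D).N₀ := (⟨a, ha⟩ : ↥(NR R₀ (h.Ti : Set (Place K F)) h.reg₀ D))
    let s₁ : (h.ofDivisor D).N₁ :=
      (⟨-b, (LOff (h.Tz : Set (Place K F)) D).neg_mem hb⟩ :
        ↥(NR R₁ (h.Tz : Set (Place K F)) h.reg₁ D))
    refine ⟨(s₀, s₁), h.val₀₁_injective D ?_⟩
    rw [h.val₀₁_cech, ← hab]
    show a - -b = a + b
    ring
  · rintro ⟨⟨s₀, s₁⟩, rfl⟩
    rw [h.val₀₁_cech]
    refine Submodule.sub_mem _ (Submodule.mem_sup_left ?_) (Submodule.mem_sup_right ?_)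
    · exact (s₀ : ↥(NR R₀ (h.Ti : Set (Place K F)) h.reg₀ D)).2
    · exact (s₁ : ↥(NR R₁ (h.Tz : Set (Place K F)) h.reg₁ D)).2

theorem range_valH1 (D : Divisor K F) :
    LinearMap.range (h.valH1 D) = (LOff ((h.Tz : Set (Place K F)) ∪ h.Ti) D).map
      (LOff (h.Ti : Set (Place K F)) D ⊔ LOff (h.Tz : Set (Place K F)) D).mkQ := by
  rw [valH1, LinearMap.range_comp, h.range_val₀₁]

/-- `Ȟ¹(O(D)) ≃ N₀₁ / (N₀ + N₁)` (image form). -/
def equivH1 (D : Divisor K F) :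
    (h.ofDivisor D).H1 ≃ₗ[K] ↥((LOff ((h.Tz : Set (Place K F)) ∪ h.Ti) D).map
      (LOff (h.Ti : Set (Place K F)) D ⊔ LOff (h.Tz : Set (Place K F)) D).mkQ) :=
  ((Submodule.quotEquivOfEq _ _ (h.ker_valH1 D).symm).trans
    (LinearMap.quotKerEquivRange (h.valH1 D))).trans
    (LinearEquiv.ofEq _ _ (h.range_valH1 D))

theorem finite_H1_ofDivisor (D : Divisor K F) : Module.Finite K (h.ofDivisor D).H1 :=
  haveI := h.ff1
  haveI := (finrank_twisted_cech h.Tz h.Ti D h.disjoint h.Tz_nonempty h.Ti_nonempty).1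
  Module.Finite.equiv (h.equivH1 D).symm

theorem finrank_H1_ofDivisor (D : Divisor K F) :
    haveI := h.ff1
    Module.finrank K (h.ofDivisor D).H1 = specIndex D := by
  haveI := h.ff1
  rw [(h.equivH1 D).finrank_eq]
  exact (finrank_twisted_cech h.Tz h.Ti D h.disjoint h.Tz_nonempty h.Ti_nonempty).2

/-- **Riemann–Roch** for `O(D)`: `χ(O(D)) = deg D + 1 - g`. -/
theorem euler_ofDivisor (D : Divisor K F) :
    (h.ofDivisor D).euler = Divisor.degree D + 1 - (genusFF K F : ℤ) := by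
  haveI := h.ff1
  unfold GlueDatum.euler
  rw [h.finrank_H0_ofDivisor, h.finrank_H1_ofDivisor, specIndex_eq]
  ring

include h in
theorem inj₀₁ : Function.Injective (algebraMap R₀₁ F) := by
  haveI := h.away₀
  rw [injective_iff_map_eq_zero]
  intro r hr
  obtain ⟨⟨a, s⟩, hs⟩ := IsLocalization.surj (Submonoid.powers x₀) r
  have h1 : algebraMap R₀ F a = 0 := by
    rw [IsScalarTower.algebraMap_apply R₀ R₀₁ F, ← hs, map_mul, hr, zero_mul]
  have h2 : a = 0 := h.inj₀ (by rw [h1, map_zero])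
  rw [h2, map_zero] at hs
  exact (IsLocalization.map_units R₀₁ s).mul_left_eq_zero.mp hs

include h in
theorem range₀₁' (f : F)
    (hf : ∀ v : Place K F, v ∉ (h.Tz : Set (Place K F)) ∪ h.Ti → 0 ≤ v.ord f) :
    f ∈ Set.range (algebraMap R₀₁ F) := by
  haveI := h.away₀
  have hmem : f ∈ NR R₀₁ ((h.Tz : Set (Place K F)) ∪ h.Ti) h.reg₀₁ 0 := by
    intro v hv
    right
    simpa using hf v hv
  obtain ⟨⟨g, s⟩, hgs⟩ := (h.isLocalizedModule₀ 0).surj
    (⟨f, hmem⟩ : ↥(NR R₀₁ ((h.Tz : Set (Place K F)) ∪ h.Ti) h.reg₀₁ 0))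
  have h1 : algebraMap R₀ F (s : R₀) * f = (g : F) := by
    have := congrArg Subtype.val hgs
    rw [resNR_coe] at this
    rw [← this]
    exact (coe_smul_NR' h.reg₀₁ 0 (s : R₀)
      (⟨f, hmem⟩ : ↥(NR R₀₁ ((h.Tz : Set (Place K F)) ∪ h.Ti) h.reg₀₁ 0))).symm
  obtain ⟨a, ha⟩ : (g : F) ∈ Set.range (algebraMap R₀ F) := by
    refine h.range₀' _ fun v hv => ?_
    have := g.2 v hv
    simp only [Finsupp.coe_zero, Pi.zero_apply, neg_zero] at this
    exact ord_nonneg_of_big this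
  obtain ⟨u, hu⟩ := (IsLocalization.map_units R₀₁ s).exists_right_inv
  refine ⟨algebraMap R₀ R₀₁ a * u, ?_⟩
  have hs0 : algebraMap R₀ F (s : R₀) ≠ 0 := by
    obtain ⟨n, hn⟩ := s.2
    rw [← hn, map_pow]
    exact pow_ne_zero _ h.x_ne_zero
  have hu' : algebraMap R₀ F (s : R₀) * algebraMap R₀₁ F u = 1 := by
    rw [IsScalarTower.algebraMap_apply R₀ R₀₁ F, ← map_mul, hu, map_one]
  rw [map_mul, ← IsScalarTower.algebraMap_apply R₀ R₀₁ F, ha, ← h1]
  rw [mul_right_comm, hu', one_mul]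

/-- `r ↦ algebraMap r`, as a linear equivalence `R ≃ LOff T 0`. -/
def unitEquiv {R : Type u} [CommRing R] [Algebra R F] (T : Set (Place K F))
    (hT : ∀ (r : R) (v : Place K F), v ∉ T → 0 ≤ v.ord (algebraMap R F r))
    (hinj : Function.Injective (algebraMap R F))
    (hrange : ∀ f : F, (∀ v : Place K F, v ∉ T → 0 ≤ v.ord f) → f ∈ Set.range (algebraMap R F)) :
    R ≃ₗ[R] ↥(NR R T hT (0 : Divisor K F)) :=
  LinearEquiv.ofBijective
    (LinearMap.codRestrict (NR R T hT (0 : Divisor K F)) (Algebra.linearMap R F)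
      (fun r v hv => Or.inr (by simpa using hT r v hv)))
    ⟨fun a b hab => hinj (congrArg Subtype.val hab), fun f => by
      obtain ⟨r, hr⟩ := hrange f.1 (fun v hv => by
        have := f.2 v hv
        simp only [Finsupp.coe_zero, Pi.zero_apply, neg_zero] at this
        exact ord_nonneg_of_big this)
      exact ⟨r, Subtype.ext hr⟩⟩

@[simp] theorem unitEquiv_coe {R : Type u} [CommRing R] [Algebra R F] (T : Set (Place K F))
    (hT : ∀ (r : R) (v : Place K F), v ∉ T → 0 ≤ v.ord (algebraMap R F r))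
    (hinj : Function.Injective (algebraMap R F))
    (hrange : ∀ f : F, (∀ v : Place K F, v ∉ T → 0 ≤ v.ord f) → f ∈ Set.range (algebraMap R F))
    (r : R) : ((unitEquiv T hT hinj hrange r : ↥(NR R T hT (0 : Divisor K F))) : F) =
      algebraMap R F r := rfl

/-- The unit gluing datum is `O(0)`. -/
def unitIso : GlueDatum.Iso (GlueDatum.unit K R₀ R₁ R₀₁) (h.ofDivisor 0) where
  e₀ := unitEquiv _ h.reg₀ h.inj₀ h.range₀'
  e₁ := unitEquiv _ h.reg₁ h.inj₁ h.range₁'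
  e₀₁ := unitEquiv _ h.reg₀₁ h.inj₀₁ h.range₀₁'
  comm₀ := fun s => Subtype.ext
    (show algebraMap R₀₁ F (algebraMap R₀ R₀₁ s) = algebraMap R₀ F s from
      (IsScalarTower.algebraMap_apply R₀ R₀₁ F _).symm)
  comm₁ := fun s => Subtype.ext
    (show algebraMap R₀₁ F (algebraMap R₁ R₀₁ s) = algebraMap R₁ F s from
      (IsScalarTower.algebraMap_apply R₁ R₀₁ F _).symm)

theorem unit_isIso_ofDivisor_zero :
    (GlueDatum.unit K R₀ R₁ R₀₁).IsIso (h.ofDivisor 0) := ⟨h.unitIso⟩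

include h in
theorem euler_unit :
    (GlueDatum.unit K R₀ R₁ R₀₁).euler = 1 - (genusFF K F : ℤ) := by
  rw [H265.euler_eq_of_isIso h.unit_isIso_ofDivisor_zero, h.euler_ofDivisor, map_zero, zero_add]

/-- `deg O(D) = deg D`. -/
theorem degree_ofDivisor (D : Divisor K F) : (h.ofDivisor D).degree = Divisor.degree D := by
  unfold GlueDatum.degree
  rw [h.euler_ofDivisor, h.euler_unit]
  ring

include h in
/-- **GENUS** (abstract form): `dim Ȟ¹(O) = genusFF K F`. -/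
theorem finrank_H1_unit :
    Module.finrank K (GlueDatum.unit K R₀ R₁ R₀₁).H1 = genusFF K F := by
  haveI := h.ff1
  rw [(H265.isoH1 h.unitIso).finrank_eq, h.finrank_H1_ofDivisor]
  have h1 := specIndex_eq (0 : Divisor K F)
  rw [ell_zero, map_zero] at h1
  have : ((specIndex (0 : Divisor K F) : ℕ) : ℤ) = (genusFF K F : ℤ) := by
    rw [h1]; push_cast; ring
  exact_mod_cast this

include h in
theorem finite_H1_unit : Module.Finite K (GlueDatum.unit K R₀ R₁ R₀₁).H1 :=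
  haveI := h.finite_H1_ofDivisor 0
  Module.Finite.equiv (H265.isoH1 h.unitIso).symm

/-- Riemann–Roch in terms of the degree of a gluing datum isomorphic to some `O(D)`. -/
theorem euler_eq_degree_of_isIso {G : GlueDatum K R₀ R₁ R₀₁} {D : Divisor K F}
    (hG : G.IsIso (h.ofDivisor D)) : G.euler = G.degree + 1 - (genusFF K F : ℤ) := by
  rw [H265.euler_eq_of_isIso hG, H265.degree_eq_of_isIso hG, h.euler_ofDivisor,
    h.degree_ofDivisor]

end IsFFCospan

end Fermat.Agent.S27.H970
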