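import Fermat.Agent.S27.H970.PicIso

/-!
# S27 / PIC-CL (helper970): invertible lattices in `F` are of the form `LOff T D`

* `exists_injective_linearMap_to_frac` : an invertible module over a domain embeds into the
  fraction field;
* `exists_eq_LOff` : an invertible `R`-submodule `I ⊆ F`, `R` = functions regular off the finite
  nonempty set `T`, is `LOff T D` for a divisor `D`.
-/

set_option autoImplicit false
set_option linter.unusedSectionVars false
set_option linter.style.haveILetI false
universe u

noncomputable section

open AlgebraicCurve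
open scoped TensorProduct

namespace Fermat.Agent.S27.H970

open Fermat.Agent.S25 Fermat.Agent.Lib.RR Fermat.Agent.Lib.RR.H638 Fermat.Agent.Lib.RR.H623

section Embed

variable {R M F : Type*} [CommRing R] [IsDomain R] [Field F] [Algebra R F] [IsFractionRing R F]
  [AddCommGroup M] [Module R M] [Module.Invertible R M]

/-- An invertible module over a domain embeds into the fraction field. -/
theorem exists_injective_linearMap_to_frac : ∃ θ : M →ₗ[R] F, Function.Injective θ := by
  haveI : Module.Free F (F ⊗[R] M) := inferInstance
  obtain ⟨e⟩ := Module.Invertible.free_iff_linearEquiv.mp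
    (inferInstance : Module.Free F (F ⊗[R] M))
  have h1 : Function.Injective ((Algebra.linearMap R F).rTensor M) :=
    Module.Flat.rTensor_preserves_injective_linearMap _ (IsFractionRing.injective R F)
  have h2 : Function.Injective (TensorProduct.mk R F M 1) := by
    have : (TensorProduct.mk R F M 1 : M → F ⊗[R] M) =
        (Algebra.linearMap R F).rTensor M ∘ (TensorProduct.lid R M).symm := by
      ext m
      simp
    rw [this]
    exact h1.comp (TensorProduct.lid R M).symm.injective
  exact ⟨(e.restrictScalars R).toLinearMap.comp (TensorProduct.mk R F M 1),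
    (e.restrictScalars R).injective.comp h2⟩

end Embed

section LemmaL

variable {K F : Type u} [Field K] [Field F] [Algebra K F] [FF1 K F]
  {R : Type u} [CommRing R] [IsDomain R] [Algebra R F] [IsFractionRing R F]

/-- **Invertible lattices are `LOff T D`.**  `R` is the ring of functions regular off the finite
nonempty set `T`; an invertible `R`-submodule `I` of `F` is the module of sections of `O(D)` over
the complement of `T`, for a suitable divisor `D`. -/
theorem exists_eq_LOff (T : Finset (Place K F))
    (hT : ∀ (r : R) (v : Place K F), v ∉ (T : Set (Place K F)) → 0 ≤ v.ord (algebraMap R F r))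
    (hrange : ∀ f : F, (∀ v : Place K F, v ∉ (T : Set (Place K F)) → 0 ≤ v.ord f) →
      f ∈ Set.range (algebraMap R F))
    (I : Submodule R F) [Module.Invertible R I] :
    ∃ D : Divisor K F, ∀ f : F, f ∈ I ↔ f ∈ LOff (T : Set (Place K F)) D := by
  classical
  -- generators
  have hfg : I.FG := (Module.Finite.iff_fg (N := I)).mp inferInstance
  obtain ⟨S, hS⟩ := hfg
  -- `I ≠ 0`
  have hne : ∃ a ∈ I, a ≠ 0 := by
    by_contra hcon
    push_neg at hcon
    have h0 : ∀ a : I, a = 0 := fun a => Subtype.ext (hcon a a.2)
    have := (inferInstance : FaithfulSMul R I).eq_of_smul_eq_smul (m₁ := (0 : R)) (m₂ := 1)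
      (fun a => by rw [h0 ((0 : R) • a), h0 ((1 : R) • a)])
    exact zero_ne_one this
  set S' : Finset F := S.filter (fun a => a ≠ 0) with hS'
  have hS'ne : S'.Nonempty := by
    by_contra hcon
    rw [Finset.not_nonempty_iff_eq_empty] at hcon
    obtain ⟨a, ha, ha0⟩ := hne
    have hS0 : ∀ b ∈ S, b = 0 := by
      intro b hb
      by_contra hb0
      have : b ∈ S' := Finset.mem_filter.mpr ⟨hb, hb0⟩
      rw [hcon] at this
      exact Finset.notMem_empty _ this
    have : I = ⊥ := by
      rw [← hS, Submodule.span_eq_bot]
      exact fun b hb => hS0 b hb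
    rw [this, Submodule.mem_bot] at ha
    exact ha0 ha
  have hS'I : ∀ a ∈ S', a ∈ I := fun a ha => by
    rw [← hS]
    exact Submodule.subset_span (Finset.mem_coe.mpr (Finset.mem_filter.mp ha).1)
  have hS'0 : ∀ a ∈ S', a ≠ 0 := fun a ha => (Finset.mem_filter.mp ha).2
  -- the minimum of the orders of the generators
  set m : Place K F → ℤ := fun v => S'.inf' hS'ne (fun a => v.ord a) with hm
  have hm_le : ∀ v, ∀ a ∈ S', m v ≤ v.ord a := fun v a ha =>
    Finset.inf'_le (fun a => v.ord a) ha
  have hm_att : ∀ v, ∃ a ∈ S', v.ord a = m v := fun v =>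
    Finset.exists_mem_eq_inf' hS'ne (fun a => v.ord a) |>.imp fun a ha => ⟨ha.1, ha.2.symm⟩
  have hbig : ∀ f ∈ I, ∀ v : Place K F, v ∉ (T : Set (Place K F)) → Big v (m v) f := by
    intro f hf v hv
    rw [← hS] at hf
    induction hf using Submodule.span_induction with
    | mem a ha =>
      by_cases ha0 : a = 0
      · rw [ha0]; exact Big.zero v _
      · exact Big.of_le (hm_le v a (Finset.mem_filter.mpr ⟨Finset.mem_coe.mp ha, ha0⟩))
    | zero => exact Big.zero v _
    | add a b _ _ ha hb => exact ha.add hb
    | smul r a _ ha =>
      rw [Algebra.smul_def]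
      have h1 : Big v 0 (algebraMap R F r) := Or.inr (hT r v hv)
      have := h1.mul ha
      rwa [zero_add] at this
  -- finite support
  have hfin : (Function.support (fun v => -m v)).Finite := by
    refine ((S'.finite_toSet.biUnion (t := fun a => {v : Place K F | v.ord a ≠ 0})
      fun a ha => ?_)).subset ?_
    · have := (divOf (K := K) a (hS'0 a ha)).support.finite_toSet
      refine this.subset fun v hv => ?_
      rw [Finset.mem_coe, Finsupp.mem_support_iff, divOf_apply]
      exact hv
    · intro v hv
      rw [Function.mem_support] at hv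
      obtain ⟨a, ha, hav⟩ := hm_att v
      refine Set.mem_biUnion (Finset.mem_coe.mpr ha) ?_
      show v.ord a ≠ 0
      rw [hav]
      intro h0
      exact hv (by rw [h0, neg_zero])
  set D : Divisor K F := Finsupp.ofSupportFinite (fun v => -m v) hfin with hD
  have hDv : ∀ v, -D v = m v := fun v => by
    rw [hD, Finsupp.ofSupportFinite_coe, neg_neg]
  refine ⟨D, fun f => ⟨fun hf v hv => by rw [hDv]; exact hbig f hf v hv, fun hf => ?_⟩⟩
  -- the hard inclusion, through `I ⊗ I^∨ ≅ R`
  have key : ∀ (φ : Module.Dual R I) (a : I), f * algebraMap R F (φ a) ∈ I := by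
    intro φ a
    obtain ⟨b, hb⟩ := linearMap_eq_mul ((Algebra.linearMap R F).comp φ)
    have hb' : ∀ a : I, algebraMap R F (φ a) = b * (a : F) := hb
    have hreg : ∀ v : Place K F, v ∉ (T : Set (Place K F)) → 0 ≤ v.ord (b * f) := by
      intro v hv
      by_cases hb0 : b = 0
      · rw [hb0, zero_mul, v.ord_zero]
      obtain ⟨a', ha', hav⟩ := hm_att v
      have h1 : 0 ≤ v.ord (b * a') := by
        have := hT (φ ⟨a', hS'I a' ha'⟩) v hv
        rwa [hb'] at this
      rw [v.ord_mul hb0 (hS'0 a' ha'), hav] at h1
      have h2 := (Big.self v b).mul (hf v hv)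
      rw [hDv] at h2
      exact ord_nonneg_of_big (h2.mono h1)
    obtain ⟨r, hr⟩ := hrange _ hreg
    have : f * algebraMap R F (φ a) = r • (a : F) := by
      rw [hb', Algebra.smul_def, hr]
      ring
    rw [this]
    exact I.smul_mem r a.2
  have key2 : ∀ t : Module.Dual R I ⊗[R] I, f * algebraMap R F (contractLeft R I t) ∈ I := by
    intro t
    induction t using TensorProduct.induction_on with
    | zero => rw [map_zero, map_zero, mul_zero]; exact I.zero_mem
    | tmul φ a => rw [contractLeft_apply]; exact key φ a
    | add x y hx hy => rw [map_add, map_add, mul_add]; exact I.add_mem hx hy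
  obtain ⟨t, ht⟩ := (Module.Invertible.bijective (R := R) (M := I)).2 1
  have := key2 t
  rwa [ht, map_one, mul_one] at this

end LemmaL

end Fermat.Agent.S27.H970
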