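import Fermat.Agent.S27.H970.Cospan

/-!
# S27 / the gluing datum `O(D)` of a divisor on a function-field cospan (helper970)
-/

set_option autoImplicit false
set_option linter.unusedSectionVars false
set_option linter.style.haveILetI false
universe u

noncomputable section

open AlgebraicCurve

namespace Fermat.Agent.S27.H970

open Fermat.Agent.S25 Fermat.Agent.Lib.RR Fermat.Agent.Lib.RR.H638 Fermat.Agent.Lib.RR.H623

section NR

variable {K F : Type u} [Field K] [Field F] [Algebra K F]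

/-- `LOff T D` as a module over a ring `R` of functions regular off `T`. -/
def NR (R : Type u) [CommRing R] [Algebra R F] (T : Set (Place K F))
    (hT : ∀ (r : R) (v : Place K F), v ∉ T → 0 ≤ v.ord (algebraMap R F r))
    (D : Divisor K F) : Submodule R F where
  carrier := {f | ∀ v : Place K F, v ∉ T → Big v (-D v) f}
  zero_mem' := fun v _ => Big.zero v _
  add_mem' := fun hf hg v hv => (hf v hv).add (hg v hv)
  smul_mem' := by
    intro c f hf v hv
    rw [Algebra.smul_def]
    have h1 : Big v 0 (algebraMap R F c) := Or.inr (hT c v hv)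
    have := h1.mul (hf v hv)
    rwa [zero_add] at this

variable {R : Type u} [CommRing R] [Algebra R F] {T : Set (Place K F)}
    {hT : ∀ (r : R) (v : Place K F), v ∉ T → 0 ≤ v.ord (algebraMap R F r)}
    {D : Divisor K F}

theorem mem_NR {f : F} : f ∈ NR R T hT D ↔ ∀ v : Place K F, v ∉ T → Big v (-D v) f := Iff.rfl

theorem mem_NR_iff_mem_LOff {f : F} : f ∈ NR R T hT D ↔ f ∈ LOff T D := Iff.rfl

/-- `LOff T D` is nonzero for a nonempty finite set `T`. -/
theorem exists_ne_zero_mem_LOff [FF1 K F] (T : Finset (Place K F)) (hT : T.Nonempty)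
    (D : Divisor K F) : ∃ f : F, f ≠ 0 ∧ f ∈ LOff (T : Set (Place K F)) D := by
  have h1 : 1 ≤ T.card := Finset.card_pos.mpr hT
  set n : ℕ := ((genusFF K F : ℤ) - Divisor.degree D).toNat with hn
  have hdeg : Divisor.degree (D + n • divT T) = Divisor.degree D + n * T.card := by
    rw [map_add, degree_nsmul_divT]
  have h2 := riemann_inequality_genusFF (D + n • divT T)
  rw [hdeg] at h2
  have h3 : (genusFF K F : ℤ) - Divisor.degree D ≤ n := Int.self_le_toNat _
  have h4 : (n : ℤ) ≤ n * T.card := by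
    have : (1 : ℤ) ≤ T.card := by exact_mod_cast h1
    have : (0 : ℤ) ≤ n := Int.natCast_nonneg n
    nlinarith
  have hpos : 0 < Module.finrank K (riemannRochSpace (D + n • divT T)) := by
    have : (0 : ℤ) < (ell (D + n • divT T) : ℤ) := by omega
    exact_mod_cast this
  obtain ⟨f, hf⟩ := Module.finrank_pos_iff_exists_ne_zero.mp hpos
  exact ⟨f, fun h => hf (Subtype.ext h), L_add_le_LOff D T n f.2⟩


/-- `0 ≤ ord_v f` from `Big v 0 f`. -/
theorem ord_nonneg_of_big {v : Place K F} {f : F} (hf : Big v 0 f) : 0 ≤ v.ord f := by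
  rcases hf with h | h
  · rw [h, v.ord_zero]
  · exact h

/-- The `R`-module `LOff T D` is finitely generated when `R` is noetherian and equal to the
ring of functions regular off the nonempty finite set `T`. -/
theorem finite_NR [FF1 K F] [IsNoetherianRing R] (hinj : Function.Injective (algebraMap R F))
    (T : Finset (Place K F)) (hTne : T.Nonempty)
    (hT : ∀ (r : R) (v : Place K F), v ∉ (T : Set (Place K F)) → 0 ≤ v.ord (algebraMap R F r))
    (hrange : ∀ f : F, (∀ v : Place K F, v ∉ (T : Set (Place K F)) → 0 ≤ v.ord f) →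
      f ∈ Set.range (algebraMap R F))
    (D : Divisor K F) : Module.Finite R ↥(NR R (T : Set (Place K F)) hT D) := by
  obtain ⟨g, hg0, hg⟩ := exists_ne_zero_mem_LOff T hTne (-D)
  let ψ : ↥(NR R (T : Set (Place K F)) hT D) →ₗ[R] F :=
    (LinearMap.mulLeft R g).comp (NR R (T : Set (Place K F)) hT D).subtype
  have hψ : ∀ f, ψ f ∈ LinearMap.range (Algebra.linearMap R F) := by
    intro f
    refine hrange _ fun v hv => ?_
    have h1 := (hg v hv).mul (f.2 v hv)
    simp only [Finsupp.coe_neg, Pi.neg_apply, neg_neg] at h1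
    rw [add_neg_cancel] at h1
    exact ord_nonneg_of_big h1
  let φ : ↥(NR R (T : Set (Place K F)) hT D) →ₗ[R] R :=
    (LinearEquiv.ofInjective (Algebra.linearMap R F) hinj).symm.toLinearMap.comp
      (LinearMap.codRestrict _ ψ hψ)
  have hφ : Function.Injective φ := by
    intro a b hab
    have hab' : LinearMap.codRestrict _ ψ hψ a = LinearMap.codRestrict _ ψ hψ b :=
      (LinearEquiv.ofInjective (Algebra.linearMap R F) hinj).symm.injective hab
    have h1 : ψ a = ψ b := congrArg Subtype.val hab'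
    have h2 : g * (a : F) = g * (b : F) := h1
    exact Subtype.ext (mul_left_cancel₀ hg0 h2)
  exact Module.Finite.of_injective φ hφ

theorem nontrivial_NR [FF1 K F] (T : Finset (Place K F)) (hTne : T.Nonempty)
    (hT : ∀ (r : R) (v : Place K F), v ∉ (T : Set (Place K F)) → 0 ≤ v.ord (algebraMap R F r))
    (D : Divisor K F) : Nontrivial ↥(NR R (T : Set (Place K F)) hT D) := by
  obtain ⟨g, hg0, hg⟩ := exists_ne_zero_mem_LOff T hTne D
  exact ⟨⟨⟨g, hg⟩, 0, fun h => hg0 (congrArg Subtype.val h)⟩⟩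

theorem invertible_NR [FF1 K F] [IsDedekindDomain R] [IsFractionRing R F]
    (T : Finset (Place K F)) (hTne : T.Nonempty)
    (hT : ∀ (r : R) (v : Place K F), v ∉ (T : Set (Place K F)) → 0 ≤ v.ord (algebraMap R F r))
    (hrange : ∀ f : F, (∀ v : Place K F, v ∉ (T : Set (Place K F)) → 0 ≤ v.ord f) →
      f ∈ Set.range (algebraMap R F))
    (D : Divisor K F) : Module.Invertible R ↥(NR R (T : Set (Place K F)) hT D) := by
  haveI := finite_NR (IsFractionRing.injective R F) T hTne hT hrange D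
  haveI := nontrivial_NR T hTne hT D
  exact H207.invertible_of_injective_to_fractionField
    (NR R (T : Set (Place K F)) hT D).subtype Subtype.val_injective

section Res

variable {R' : Type u} [CommRing R'] [Algebra R' F] [Algebra R R'] [IsScalarTower R R' F]

/-- The restriction `LOff T D → LOff T' D` for `T ⊆ T'`, as an `R`-linear map. -/
def resNR {T T' : Set (Place K F)} (hTT' : T ⊆ T')
    (hT : ∀ (r : R) (v : Place K F), v ∉ T → 0 ≤ v.ord (algebraMap R F r))
    (hT' : ∀ (r : R') (v : Place K F), v ∉ T' → 0 ≤ v.ord (algebraMap R' F r))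
    (D : Divisor K F) : ↥(NR R T hT D) →ₗ[R] ↥(NR R' T' hT' D) where
  toFun f := ⟨f.1, fun v hv => f.2 v (fun hv' => hv (hTT' hv'))⟩
  map_add' _ _ := rfl
  map_smul' _ _ := rfl

@[simp] theorem resNR_coe {T T' : Set (Place K F)} (hTT' : T ⊆ T')
    (hT : ∀ (r : R) (v : Place K F), v ∉ T → 0 ≤ v.ord (algebraMap R F r))
    (hT' : ∀ (r : R') (v : Place K F), v ∉ T' → 0 ≤ v.ord (algebraMap R' F r))
    (D : Divisor K F) (f : ↥(NR R T hT D)) : ((resNR hTT' hT hT' D f : ↥(NR R' T' hT' D)) : F) = f :=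
  rfl

theorem resNR_injective {T T' : Set (Place K F)} (hTT' : T ⊆ T')
    (hT : ∀ (r : R) (v : Place K F), v ∉ T → 0 ≤ v.ord (algebraMap R F r))
    (hT' : ∀ (r : R') (v : Place K F), v ∉ T' → 0 ≤ v.ord (algebraMap R' F r))
    (D : Divisor K F) : Function.Injective (resNR (R := R) (R' := R') hTT' hT hT' D) :=
  fun a b hab => Subtype.ext
    (show ((resNR hTT' hT hT' D a : ↥(NR R' T' hT' D)) : F) = (resNR hTT' hT hT' D b : _) from
      congrArg Subtype.val hab)


theorem coe_smul_NR' {T' : Set (Place K F)}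
    (hT' : ∀ (r : R') (v : Place K F), v ∉ T' → 0 ≤ v.ord (algebraMap R' F r))
    (D : Divisor K F) (r : R) (f : ↥(NR R' T' hT' D)) :
    ((r • f : ↥(NR R' T' hT' D)) : F) = algebraMap R F r * (f : F) := by
  rw [← Algebra.smul_def]; rfl

/-- The restriction `LOff T D → LOff T' D` is a localization at the powers of `t` if
`t` is a unit off `T'` and vanishes on `T' \ T`. -/
theorem isLocalizedModule_resNR (T T' : Set (Place K F)) (hfin : T'.Finite)
    (hTT' : T ⊆ T')
    (hT : ∀ (r : R) (v : Place K F), v ∉ T → 0 ≤ v.ord (algebraMap R F r))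
    (hT' : ∀ (r : R') (v : Place K F), v ∉ T' → 0 ≤ v.ord (algebraMap R' F r))
    (t : R) (ht : algebraMap R F t ≠ 0)
    (ht0 : ∀ v : Place K F, v ∉ T' → v.ord (algebraMap R F t) = 0)
    (htpos : ∀ v : Place K F, v ∈ T' → v ∉ T → 0 < v.ord (algebraMap R F t))
    (D : Divisor K F) :
    IsLocalizedModule (Submonoid.powers t) (resNR (R := R) (R' := R') hTT' hT hT' D) := by
  classical
  refine ⟨?_, ?_, ?_⟩
  · rintro ⟨s, n, rfl⟩
    have hs : algebraMap R F (t ^ n) ≠ 0 := by rw [map_pow]; exact pow_ne_zero _ ht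
    have hs0 : ∀ v : Place K F, v ∉ T' → v.ord (algebraMap R F (t ^ n)) = 0 := by
      intro v hv
      rw [map_pow, ord_pow, ht0 v hv, mul_zero]
    rw [Module.End.isUnit_iff]
    constructor
    · intro a b hab
      have h1 : ((t ^ n • a : ↥(NR R' T' hT' D)) : F) =
          ((t ^ n • b : ↥(NR R' T' hT' D)) : F) := congrArg Subtype.val hab
      rw [coe_smul_NR', coe_smul_NR'] at h1
      exact Subtype.ext (mul_left_cancel₀ hs h1)
    · intro b
      have hmem : (algebraMap R F (t ^ n))⁻¹ * (b : F) ∈ NR R' T' hT' D := by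
        intro v hv
        have h1 : Big v 0 ((algebraMap R F (t ^ n))⁻¹) := by
          right
          rw [v.ord_inv, hs0 v hv, neg_zero]
        have := h1.mul (b.2 v hv)
        rwa [zero_add] at this
      refine ⟨⟨_, hmem⟩, Subtype.ext ?_⟩
      show ((t ^ n • (⟨_, hmem⟩ : ↥(NR R' T' hT' D)) :
        ↥(NR R' T' hT' D)) : F) = b
      rw [coe_smul_NR']
      exact mul_inv_cancel_left₀ hs _
  · intro g
    by_cases hg0 : (g : F) = 0
    · refine ⟨⟨0, 1⟩, Subtype.ext ?_⟩
      show (((1 : Submonoid.powers t) • g : ↥(NR R' T' hT' D)) : F) = _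
      rw [one_smul, map_zero, hg0]; rfl
    set n : ℕ := ∑ v ∈ hfin.toFinset, (v.ord (g : F) + D v).natAbs with hn
    have hmem : algebraMap R F (t ^ n) * (g : F) ∈ NR R T hT D := by
      intro v hv
      right
      have hs : algebraMap R F (t ^ n) ≠ 0 := by rw [map_pow]; exact pow_ne_zero _ ht
      rw [v.ord_mul hs hg0, map_pow, ord_pow]
      by_cases hv' : v ∈ T'
      · have h1 : (v.ord (g : F) + D v).natAbs ≤ n :=
          Finset.single_le_sum (f := fun w => (w.ord (g : F) + D w).natAbs)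
            (fun _ _ => Nat.zero_le _) (hfin.mem_toFinset.mpr hv')
        have h2 := htpos v hv' hv
        have h3 : ((v.ord (g : F) + D v).natAbs : ℤ) ≤ (n : ℤ) := by exact_mod_cast h1
        have h5 : -(v.ord (g : F) + D v) ≤ ((v.ord (g : F) + D v).natAbs : ℤ) := by
          rw [Int.natCast_natAbs]; exact neg_le_abs _
        have h6 : (n : ℤ) ≤ n * v.ord (algebraMap R F t) := by
          have : (0 : ℤ) ≤ n := Int.natCast_nonneg n
          nlinarith
        omega
      · rw [ht0 v hv', mul_zero, zero_add]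
        exact (g.2 v hv').le_ord hg0
    refine ⟨⟨⟨_, hmem⟩, ⟨t ^ n, n, rfl⟩⟩, Subtype.ext ?_⟩
    show (((t ^ n) • g : ↥(NR R' T' hT' D)) : F) = _
    rw [coe_smul_NR']
    rfl
  · intro a b hab
    exact ⟨1, by rw [one_smul, one_smul]; exact resNR_injective hTT' hT hT' D hab⟩

end Res

end NR

section Cospan

variable {K F R₀ R₁ R₀₁ : Type u} [Field K] [Field F] [Algebra K F]
  [CommRing R₀] [CommRing R₁] [CommRing R₀₁] [Algebra K R₀] [Algebra K R₁] [Algebra K R₀₁]
  [Algebra R₀ R₀₁] [Algebra R₁ R₀₁] [IsScalarTower K R₀ R₀₁] [IsScalarTower K R₁ R₀₁]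
  [Algebra R₀ F] [Algebra R₁ F] [Algebra R₀₁ F]
  [IsScalarTower R₀ R₀₁ F] [IsScalarTower R₁ R₀₁ F]
  [IsScalarTower K R₀ F] [IsScalarTower K R₁ F] [IsScalarTower K R₀₁ F]
  {x₀ : R₀} {y₁ : R₁} (h : IsFFCospan K F R₀₁ x₀ y₁)

namespace IsFFCospan

include h

theorem subset₀ : (h.Ti : Set (Place K F)) ⊆ (h.Tz : Set (Place K F)) ∪ h.Ti :=
  Set.subset_union_right

theorem subset₁ : (h.Tz : Set (Place K F)) ⊆ (h.Tz : Set (Place K F)) ∪ h.Ti :=
  Set.subset_union_left

theorem finite₀₁ : ((h.Tz : Set (Place K F)) ∪ h.Ti).Finite :=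
  (Finset.finite_toSet _).union (Finset.finite_toSet _)

theorem isLocalizedModule₀ (D : Divisor K F) :
    IsLocalizedModule (Submonoid.powers x₀)
      (resNR (R := R₀) (R' := R₀₁) h.subset₀ h.reg₀ h.reg₀₁ D) := by
  refine isLocalizedModule_resNR _ _ h.finite₀₁ h.subset₀ h.reg₀ h.reg₀₁ x₀ h.x_ne_zero
    (fun v hv => h.ord_x_eq_zero hv) (fun v hv hv' => ?_) D
  rw [← h.mem_Tz]
  exact Finset.mem_coe.mp (hv.resolve_right hv')

theorem y_ne_zero : algebraMap R₁ F y₁ ≠ 0 := by
  rw [h.y_eq]; exact inv_ne_zero h.x_ne_zero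

theorem ord_y (v : Place K F) : v.ord (algebraMap R₁ F y₁) = -v.ord (algebraMap R₀ F x₀) := by
  rw [h.y_eq, v.ord_inv]

theorem isLocalizedModule₁ (D : Divisor K F) :
    IsLocalizedModule (Submonoid.powers y₁)
      (resNR (R := R₁) (R' := R₀₁) h.subset₁ h.reg₁ h.reg₀₁ D) := by
  refine isLocalizedModule_resNR _ _ h.finite₀₁ h.subset₁ h.reg₁ h.reg₀₁ y₁ h.y_ne_zero
    (fun v hv => ?_) (fun v hv hv' => ?_) D
  · rw [h.ord_y, h.ord_x_eq_zero hv, neg_zero]
  · have := h.mem_Ti.mp (Finset.mem_coe.mp (hv.resolve_left hv'))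
    rw [h.ord_y]
    omega

/-- **The gluing datum `O(D)`** of a divisor `D`. -/
def ofDivisor (D : Divisor K F) : GlueDatum K R₀ R₁ R₀₁ where
  N₀ := ↥(NR R₀ (h.Ti : Set (Place K F)) h.reg₀ D)
  N₁ := ↥(NR R₁ (h.Tz : Set (Place K F)) h.reg₁ D)
  N₀₁ := ↥(NR R₀₁ ((h.Tz : Set (Place K F)) ∪ h.Ti) h.reg₀₁ D)
  r₀ := resNR h.subset₀ h.reg₀ h.reg₀₁ D
  r₁ := resNR h.subset₁ h.reg₁ h.reg₀₁ D
  isBaseChange₀ :=
    haveI := h.away₀
    haveI := h.isLocalizedModule₀ D
    IsLocalizedModule.isBaseChange (Submonoid.powers x₀) R₀₁ _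
  isBaseChange₁ :=
    haveI := h.away₁
    haveI := h.isLocalizedModule₁ D
    IsLocalizedModule.isBaseChange (Submonoid.powers y₁) R₀₁ _
  invertible₀ :=
    haveI := h.ff1
    haveI := h.dedekind₀
    haveI := h.frac₀
    invertible_NR h.Ti h.Ti_nonempty h.reg₀ h.range₀' D
  invertible₁ :=
    haveI := h.ff1
    haveI := h.dedekind₁
    haveI := h.frac₁
    invertible_NR h.Tz h.Tz_nonempty h.reg₁ h.range₁' D

end IsFFCospan

end Cospan

end Fermat.Agent.S27.H970
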