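import Fermat.Agent.S27.H970.Rigid

/-!
# S27 / PIC-CL (helper970): isomorphisms and tensor products of the gluing data `O(D)`

* `ofDivisor_isIso_of_sub_mem_principal` : `D - D'` principal `⇒ O(D) ≅ O(D')`;
* `sub_mem_principal_of_isIso` : `O(D) ≅ O(D') ⇒ D - D'` principal;
-/

set_option autoImplicit false
set_option linter.unusedSectionVars false
set_option linter.style.haveILetI false
universe u

noncomputable section

open AlgebraicCurve

namespace Fermat.Agent.S27.H970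

open Fermat.Agent.S25 Fermat.Agent.Lib.RR Fermat.Agent.Lib.RR.H638 Fermat.Agent.Lib.RR.H623

section Orders

variable {K F : Type*} [Field K] [Field F] [Algebra K F] [FF1 K F]

/-- If `c • LOff T D = LOff T D'` then `D' = D - (c)` off `T`. -/
theorem eq_sub_ord_of_mul (T : Finset (Place K F)) (hT : T.Nonempty) (D D' : Divisor K F)
    (c : F) (hc : c ≠ 0)
    (h1 : ∀ f ∈ LOff (T : Set (Place K F)) D, c * f ∈ LOff (T : Set (Place K F)) D')
    (h2 : ∀ g ∈ LOff (T : Set (Place K F)) D', ∃ f ∈ LOff (T : Set (Place K F)) D, c * f = g)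
    (v : Place K F) (hv : v ∉ T) : D' v = D v - v.ord c := by
  have hv' : v ∉ (T : Set (Place K F)) := fun h => hv (Finset.mem_coe.mp h)
  obtain ⟨f, hf, hf0, hfv⟩ := exists_mem_LOff_ord_eq T hT D v hv
  obtain ⟨g, hg, hg0, hgv⟩ := exists_mem_LOff_ord_eq T hT D' v hv
  have e1 := (h1 f hf v hv').le_ord (mul_ne_zero hc hf0)
  rw [v.ord_mul hc hf0, hfv] at e1
  obtain ⟨f', hf', rfl⟩ := h2 g hg
  have hf'0 : f' ≠ 0 := fun h0 => hg0 (by rw [h0, mul_zero])
  have e2 := (hf' v hv').le_ord hf'0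
  rw [v.ord_mul hc hf'0] at hgv
  omega

/-- If `c • LOff T D • LOff T D'` spans `LOff T D''` then `D'' = D + D' - (c)` off `T`. -/
theorem eq_add_sub_ord_of_mul (T : Finset (Place K F)) (hT : T.Nonempty)
    (D D' D'' : Divisor K F) (c : F) (hc : c ≠ 0)
    (h1 : ∀ f ∈ LOff (T : Set (Place K F)) D, ∀ g ∈ LOff (T : Set (Place K F)) D',
      c * f * g ∈ LOff (T : Set (Place K F)) D'')
    (h2 : ∀ z ∈ LOff (T : Set (Place K F)) D'', z ∈ AddSubgroup.closure
      {z : F | ∃ f ∈ LOff (T : Set (Place K F)) D, ∃ g ∈ LOff (T : Set (Place K F)) D',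
        z = c * f * g})
    (v : Place K F) (hv : v ∉ T) : D'' v = D v + D' v - v.ord c := by
  have hv' : v ∉ (T : Set (Place K F)) := fun h => hv (Finset.mem_coe.mp h)
  obtain ⟨f, hf, hf0, hfv⟩ := exists_mem_LOff_ord_eq T hT D v hv
  obtain ⟨g, hg, hg0, hgv⟩ := exists_mem_LOff_ord_eq T hT D' v hv
  obtain ⟨z, hz, hz0, hzv⟩ := exists_mem_LOff_ord_eq T hT D'' v hv
  have e1 := (h1 f hf g hg v hv').le_ord (mul_ne_zero (mul_ne_zero hc hf0) hg0)
  rw [v.ord_mul (mul_ne_zero hc hf0) hg0, v.ord_mul hc hf0, hfv, hgv] at e1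
  have e2 : Big v (v.ord c - D v - D' v) z := by
    refine AddSubgroup.closure_induction (p := fun z _ => Big v (v.ord c - D v - D' v) z)
      ?_ (Big.zero v _) (fun _ _ _ _ ha hb => ha.add hb) (fun _ _ ha => ha.neg) (h2 z hz)
    rintro _ ⟨f', hf', g', hg', rfl⟩
    have h3 : Big v (v.ord c) c := Big.self v c
    have := (h3.mul (hf' v hv')).mul (hg' v hv')
    exact this.mono (by omega)
  have e3 := e2.le_ord hz0
  omega

end Orders

section Mul

variable {K F : Type u} [Field K] [Field F] [Algebra K F]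

/-- Multiplication by `c ≠ 0` as an equivalence `LOff T D ≃ LOff T D'`, `D' = D - (c)`. -/
def mulEquivNR {R : Type u} [CommRing R] [Algebra R F] (T : Set (Place K F))
    (hT : ∀ (r : R) (v : Place K F), v ∉ T → 0 ≤ v.ord (algebraMap R F r))
    (D D' : Divisor K F) (c : F) (hc : c ≠ 0)
    (hD : ∀ v : Place K F, v ∉ T → D' v = D v - v.ord c) :
    ↥(NR R T hT D) ≃ₗ[R] ↥(NR R T hT D') where
  toFun f := ⟨c * f.1, fun v hv => by
    have := (Big.self v c).mul (f.2 v hv)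
    exact this.mono (by rw [hD v hv]; omega)⟩
  invFun g := ⟨c⁻¹ * g.1, fun v hv => by
    have := (Big.self v c⁻¹).mul (g.2 v hv)
    rw [v.ord_inv] at this
    exact this.mono (by rw [hD v hv]; omega)⟩
  left_inv f := Subtype.ext (inv_mul_cancel_left₀ hc _)
  right_inv g := Subtype.ext (mul_inv_cancel_left₀ hc _)
  map_add' f g := Subtype.ext (mul_add c _ _)
  map_smul' r f := Subtype.ext (by
    show c * (r • (f : F)) = r • (c * (f : F))
    rw [Algebra.smul_def, Algebra.smul_def, mul_left_comm])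

@[simp] theorem mulEquivNR_coe {R : Type u} [CommRing R] [Algebra R F] (T : Set (Place K F))
    (hT : ∀ (r : R) (v : Place K F), v ∉ T → 0 ≤ v.ord (algebraMap R F r))
    (D D' : Divisor K F) (c : F) (hc : c ≠ 0)
    (hD : ∀ v : Place K F, v ∉ T → D' v = D v - v.ord c) (f : ↥(NR R T hT D)) :
    ((mulEquivNR T hT D D' c hc hD f : ↥(NR R T hT D')) : F) = c * (f : F) := rfl

end Mul

section Cospan

variable {K F R₀ R₁ R₀₁ : Type u} [Field K] [Field F] [Algebra K F]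
  [CommRing R₀] [CommRing R₁] [CommRing R₀₁] [Algebra K R₀] [Algebra K R₁] [Algebra K R₀₁]
  [Algebra R₀ R₀₁] [Algebra R₁ R₀₁] [IsScalarTower K R₀ R₀₁] [IsScalarTower K R₁ R₀₁]
  [Algebra R₀ F] [Algebra R₁ F] [Algebra R₀₁ F]
  [IsScalarTower R₀ R₀₁ F] [IsScalarTower R₁ R₀₁ F]
  [IsScalarTower K R₀ F] [IsScalarTower K R₁ F] [IsScalarTower K R₀₁ F]
  {x₀ : R₀} {y₁ : R₁} (h : IsFFCospan K F R₀₁ x₀ y₁)

namespace IsFFCospan

/-- Multiplication by `c`: `O(D) ≅ O(D')` if `D' = D - (c)`. -/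
def mulIso (D D' : Divisor K F) (c : F) (hc : c ≠ 0)
    (hD : ∀ v : Place K F, D' v = D v - v.ord c) :
    GlueDatum.Iso (h.ofDivisor D) (h.ofDivisor D') where
  e₀ := mulEquivNR _ h.reg₀ D D' c hc (fun v _ => hD v)
  e₁ := mulEquivNR _ h.reg₁ D D' c hc (fun v _ => hD v)
  e₀₁ := mulEquivNR _ h.reg₀₁ D D' c hc (fun v _ => hD v)
  comm₀ := fun _ => rfl
  comm₁ := fun _ => rfl

/-- `D - D'` principal `⇒ O(D) ≅ O(D')`. -/
theorem ofDivisor_isIso_of_sub_mem_principal {D D' : Divisor K F}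
    (hDD : D - D' ∈ Divisor.principal (K := K) (F := F)) :
    (h.ofDivisor D).IsIso (h.ofDivisor D') := by
  obtain ⟨c, hc, hcv⟩ := hDD
  refine ⟨h.mulIso D D' c hc fun v => ?_⟩
  have := hcv v
  rw [Finsupp.sub_apply] at this
  omega

include h in
theorem isDomain₀₁ : IsDomain R₀₁ :=
  h.inj₀₁.isDomain (algebraMap R₀₁ F)

include h in
theorem frac₀₁ : IsFractionRing R₀₁ F := by
  haveI := h.dedekind₀
  haveI := h.frac₀
  haveI : FaithfulSMul R₀₁ F := (faithfulSMul_iff_algebraMap_injective _ _).mpr h.inj₀₁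
  refine IsFractionRing.of_field _ _ fun z => ?_
  obtain ⟨a, b, _, rfl⟩ := IsFractionRing.div_surjective (A := R₀) z
  exact ⟨algebraMap R₀ R₀₁ a, algebraMap R₀ R₀₁ b, by
    rw [← IsScalarTower.algebraMap_apply R₀ R₀₁ F, ← IsScalarTower.algebraMap_apply R₀ R₀₁ F]⟩

include h in
theorem not_mem_Ti_or_not_mem_Tz (v : Place K F) : v ∉ h.Ti ∨ v ∉ h.Tz := by
  by_cases hv : v ∈ h.Ti
  · exact Or.inr (Finset.disjoint_right.mp h.disjoint hv)
  · exact Or.inl hv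

/-- The value in `F` of sections of `O(D)`: coherence with the restriction maps. -/
theorem val₀₁_r₀ (D : Divisor K F) (s : (h.ofDivisor D).N₀) :
    h.val₀₁ D ((h.ofDivisor D).r₀ s) = h.val₀ D s := rfl

theorem val₀₁_r₁ (D : Divisor K F) (s : (h.ofDivisor D).N₁) :
    h.val₀₁ D ((h.ofDivisor D).r₁ s) = h.val₁ D s := rfl

theorem val₀_mem (D : Divisor K F) (s : (h.ofDivisor D).N₀) :
    h.val₀ D s ∈ LOff (h.Ti : Set (Place K F)) D :=
  (s : ↥(NR R₀ (h.Ti : Set (Place K F)) h.reg₀ D)).2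

theorem val₁_mem (D : Divisor K F) (s : (h.ofDivisor D).N₁) :
    h.val₁ D s ∈ LOff (h.Tz : Set (Place K F)) D :=
  (s : ↥(NR R₁ (h.Tz : Set (Place K F)) h.reg₁ D)).2

/-- Sections of `O(D)` over the chart `0` from elements of `LOff Ti D`. -/
def mk₀ (D : Divisor K F) (f : F) (hf : f ∈ LOff (h.Ti : Set (Place K F)) D) :
    (h.ofDivisor D).N₀ := (⟨f, hf⟩ : ↥(NR R₀ (h.Ti : Set (Place K F)) h.reg₀ D))

/-- Sections of `O(D)` over the chart `1` from elements of `LOff Tz D`. -/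
def mk₁ (D : Divisor K F) (f : F) (hf : f ∈ LOff (h.Tz : Set (Place K F)) D) :
    (h.ofDivisor D).N₁ := (⟨f, hf⟩ : ↥(NR R₁ (h.Tz : Set (Place K F)) h.reg₁ D))

@[simp] theorem val₀_mk₀ (D : Divisor K F) (f : F) (hf : f ∈ LOff (h.Ti : Set (Place K F)) D) :
    h.val₀ D (h.mk₀ D f hf) = f := rfl

@[simp] theorem val₁_mk₁ (D : Divisor K F) (f : F) (hf : f ∈ LOff (h.Tz : Set (Place K F)) D) :
    h.val₁ D (h.mk₁ D f hf) = f := rfl

/-- An isomorphism `O(D) ≅ O(D')` is multiplication by a constant. -/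
theorem exists_iso_eq_mul {D D' : Divisor K F}
    (e : GlueDatum.Iso (h.ofDivisor D) (h.ofDivisor D')) :
    ∃ c : F, c ≠ 0 ∧ (∀ s, h.val₀₁ D' (e.e₀₁ s) = c * h.val₀₁ D s) ∧
      (∀ s, h.val₀ D' (e.e₀ s) = c * h.val₀ D s) ∧
      (∀ s, h.val₁ D' (e.e₁ s) = c * h.val₁ D s) := by
  haveI := h.isDomain₀₁
  haveI := h.frac₀₁
  haveI := h.ff1
  let φ : ↥(NR R₀₁ ((h.Tz : Set (Place K F)) ∪ h.Ti) h.reg₀₁ D) →ₗ[R₀₁] F :=
    (NR R₀₁ ((h.Tz : Set (Place K F)) ∪ h.Ti) h.reg₀₁ D').subtype.comp e.e₀₁.toLinearMap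
  obtain ⟨c, hc⟩ := linearMap_eq_mul φ
  have h01 : ∀ s, h.val₀₁ D' (e.e₀₁ s) = c * h.val₀₁ D s := hc
  have hc0 : c ≠ 0 := by
    rintro rfl
    obtain ⟨f, hf0, hf⟩ := exists_ne_zero_mem_LOff h.Ti h.Ti_nonempty D
    have h1 := h01 ((h.ofDivisor D).r₀ (h.mk₀ D f hf))
    rw [zero_mul] at h1
    have h2 : e.e₀₁ ((h.ofDivisor D).r₀ (h.mk₀ D f hf)) = 0 :=
      h.val₀₁_injective D' (by rw [h1, map_zero])
    have h3 : (h.ofDivisor D).r₀ (h.mk₀ D f hf) = 0 := by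
      have := e.e₀₁.injective (h2.trans (map_zero e.e₀₁).symm)
      exact this
    have h4 := congrArg (h.val₀₁ D) h3
    rw [h.val₀₁_r₀, val₀_mk₀, map_zero] at h4
    exact hf0 h4
  refine ⟨c, hc0, h01, fun s => ?_, fun s => ?_⟩
  · rw [← h.val₀₁_r₀ D' (e.e₀ s), ← e.comm₀ s, h01, h.val₀₁_r₀]
  · rw [← h.val₀₁_r₁ D' (e.e₁ s), ← e.comm₁ s, h01, h.val₀₁_r₁]

/-- `O(D) ≅ O(D') ⇒ D - D'` principal. -/
theorem sub_mem_principal_of_isIso {D D' : Divisor K F}
    (hiso : (h.ofDivisor D).IsIso (h.ofDivisor D')) :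
    D - D' ∈ Divisor.principal (K := K) (F := F) := by
  haveI := h.ff1
  obtain ⟨e⟩ := hiso
  obtain ⟨c, hc0, -, h0, h1⟩ := h.exists_iso_eq_mul e
  refine ⟨c, hc0, fun v => ?_⟩
  rw [Finsupp.sub_apply]
  rcases h.not_mem_Ti_or_not_mem_Tz v with hv | hv
  · have := eq_sub_ord_of_mul h.Ti h.Ti_nonempty D D' c hc0
      (fun f hf => by
        have := h.val₀_mem D' (e.e₀ (h.mk₀ D f hf))
        rwa [h0, val₀_mk₀] at this)
      (fun g hg => by
        refine ⟨h.val₀ D (e.e₀.symm (h.mk₀ D' g hg)), h.val₀_mem D _, ?_⟩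
        rw [← h0, LinearEquiv.apply_symm_apply, val₀_mk₀]) v hv
    omega
  · have := eq_sub_ord_of_mul h.Tz h.Tz_nonempty D D' c hc0
      (fun f hf => by
        have := h.val₁_mem D' (e.e₁ (h.mk₁ D f hf))
        rwa [h1, val₁_mk₁] at this)
      (fun g hg => by
        refine ⟨h.val₁ D (e.e₁.symm (h.mk₁ D' g hg)), h.val₁_mem D _, ?_⟩
        rw [← h1, LinearEquiv.apply_symm_apply, val₁_mk₁]) v hv
    omega

theorem ofDivisor_isIso_iff {D D' : Divisor K F} :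
    (h.ofDivisor D).IsIso (h.ofDivisor D') ↔ D - D' ∈ Divisor.principal (K := K) (F := F) :=
  ⟨h.sub_mem_principal_of_isIso, h.ofDivisor_isIso_of_sub_mem_principal⟩

end IsFFCospan

end Cospan

end Fermat.Agent.S27.H970
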