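import Fermat.Agent.S27.H970.Classify
import Fermat.Agent.S27.Spec

/-!
# S27 / PIC-CL (helper970): tensor products of gluing data and addition of divisors

`add_sub_mem_principal_of_tensor` : if `G ≅ O(D)`, `G' ≅ O(D')`, `G'' ≅ O(D'')` and `G''` is a
tensor product of `G` and `G'` (`S27.TensorMaps`), then `D + D' - D''` is principal.
-/

set_option autoImplicit false
set_option linter.unusedSectionVars false
set_option linter.style.haveILetI false
universe u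

noncomputable section

open AlgebraicCurve
open scoped TensorProduct

namespace Fermat.Agent.S27.H970

open Fermat.Agent.S25 Fermat.Agent.Lib.RR Fermat.Agent.Lib.RR.H638 Fermat.Agent.Lib.RR.H623

section Cospan

variable {K F R₀ R₁ R₀₁ : Type u} [Field K] [Field F] [Algebra K F]
  [CommRing R₀] [CommRing R₁] [CommRing R₀₁] [Algebra K R₀] [Algebra K R₁] [Algebra K R₀₁]
  [Algebra R₀ R₀₁] [Algebra R₁ R₀₁] [IsScalarTower K R₀ R₀₁] [IsScalarTower K R₁ R₀₁]
  [Algebra R₀ F] [Algebra R₁ F] [Algebra R₀₁ F]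
  [IsScalarTower R₀ R₀₁ F] [IsScalarTower R₁ R₀₁ F]
  [IsScalarTower K R₀ F] [IsScalarTower K R₁ F] [IsScalarTower K R₀₁ F]
  {x₀ : R₀} {y₁ : R₁} (h : IsFFCospan K F R₀₁ x₀ y₁)

namespace IsFFCospan

/-- A tensor product of `O(D)` and `O(D')` is `O(D + D')`, in divisor-class form. -/
theorem add_sub_mem_principal_of_tensor {G G' G'' : GlueDatum K R₀ R₁ R₀₁}
    {D D' D'' : Divisor K F}
    (e : GlueDatum.Iso G (h.ofDivisor D)) (e' : GlueDatum.Iso G' (h.ofDivisor D'))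
    (e'' : GlueDatum.Iso G'' (h.ofDivisor D'')) (t : TensorMaps G G' G'') :
    D + D' - D'' ∈ Divisor.principal (K := K) (F := F) := by
  haveI := h.isDomain₀₁
  haveI := h.frac₀₁
  haveI := h.ff1
  -- the bilinear map on the lattices over the intersection
  let B : ↥(NR R₀₁ ((h.Tz : Set (Place K F)) ∪ h.Ti) h.reg₀₁ D) →ₗ[R₀₁]
      ↥(NR R₀₁ ((h.Tz : Set (Place K F)) ∪ h.Ti) h.reg₀₁ D') →ₗ[R₀₁] F :=
    (t.β₀₁.compl₁₂ e.e₀₁.symm.toLinearMap e'.e₀₁.symm.toLinearMap).compr₂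
      ((NR R₀₁ ((h.Tz : Set (Place K F)) ∪ h.Ti) h.reg₀₁ D'').subtype.comp
        e''.e₀₁.toLinearMap)
  obtain ⟨c, hc⟩ := bilinear_eq_mul B
  have hB : ∀ (n : G.N₀₁) (n' : G'.N₀₁),
      h.val₀₁ D'' (e''.e₀₁ (t.β₀₁ n n')) =
        c * h.val₀₁ D (e.e₀₁ n) * h.val₀₁ D' (e'.e₀₁ n') := by
    intro n n'
    have := hc (e.e₀₁ n) (e'.e₀₁ n')
    have hB' : B (e.e₀₁ n) (e'.e₀₁ n') = h.val₀₁ D'' (e''.e₀₁ (t.β₀₁ n n')) := by
      show h.val₀₁ D'' (e''.e₀₁ (t.β₀₁ (e.e₀₁.symm (e.e₀₁ n)) (e'.e₀₁.symm (e'.e₀₁ n')))) = _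
      rw [LinearEquiv.symm_apply_apply, LinearEquiv.symm_apply_apply]
    rw [← hB']
    exact this
  have h0 : ∀ (s : G.N₀) (s' : G'.N₀),
      h.val₀ D'' (e''.e₀ (t.β₀ s s')) = c * h.val₀ D (e.e₀ s) * h.val₀ D' (e'.e₀ s') := by
    intro s s'
    rw [← h.val₀₁_r₀ D'' (e''.e₀ _), ← e''.comm₀, ← t.comm₀, hB, e.comm₀, e'.comm₀,
      h.val₀₁_r₀, h.val₀₁_r₀]
  have h1 : ∀ (s : G.N₁) (s' : G'.N₁),
      h.val₁ D'' (e''.e₁ (t.β₁ s s')) = c * h.val₁ D (e.e₁ s) * h.val₁ D' (e'.e₁ s') := by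
    intro s s'
    rw [← h.val₀₁_r₁ D'' (e''.e₁ _), ← e''.comm₁, ← t.comm₁, hB, e.comm₁, e'.comm₁,
      h.val₀₁_r₁, h.val₀₁_r₁]
  -- every section of `G''` over the chart `0` is a sum of products
  have hspan0 : ∀ u : G.N₀ ⊗[R₀] G'.N₀, h.val₀ D'' (e''.e₀ (TensorProduct.lift t.β₀ u)) ∈
      AddSubgroup.closure {z : F | ∃ f ∈ LOff (h.Ti : Set (Place K F)) D,
        ∃ g ∈ LOff (h.Ti : Set (Place K F)) D', z = c * f * g} := by
    intro u
    induction u using TensorProduct.induction_on with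
    | zero => simp only [map_zero]; exact AddSubgroup.zero_mem _
    | tmul s s' =>
      rw [TensorProduct.lift.tmul, h0]
      exact AddSubgroup.subset_closure ⟨_, h.val₀_mem D _, _, h.val₀_mem D' _, rfl⟩
    | add a b ha hb => simp only [map_add]; exact AddSubgroup.add_mem _ ha hb
  have hspan1 : ∀ u : G.N₁ ⊗[R₁] G'.N₁, h.val₁ D'' (e''.e₁ (TensorProduct.lift t.β₁ u)) ∈
      AddSubgroup.closure {z : F | ∃ f ∈ LOff (h.Tz : Set (Place K F)) D,
        ∃ g ∈ LOff (h.Tz : Set (Place K F)) D', z = c * f * g} := by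
    intro u
    induction u using TensorProduct.induction_on with
    | zero => simp only [map_zero]; exact AddSubgroup.zero_mem _
    | tmul s s' =>
      rw [TensorProduct.lift.tmul, h1]
      exact AddSubgroup.subset_closure ⟨_, h.val₁_mem D _, _, h.val₁_mem D' _, rfl⟩
    | add a b ha hb => simp only [map_add]; exact AddSubgroup.add_mem _ ha hb
  have hcl0 : ∀ z ∈ LOff (h.Ti : Set (Place K F)) D'', z ∈
      AddSubgroup.closure {z : F | ∃ f ∈ LOff (h.Ti : Set (Place K F)) D,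
        ∃ g ∈ LOff (h.Ti : Set (Place K F)) D', z = c * f * g} := by
    intro z hz
    obtain ⟨u, hu⟩ := t.bijective₀.2 (e''.e₀.symm (h.mk₀ D'' z hz))
    have := hspan0 u
    rwa [hu, LinearEquiv.apply_symm_apply, val₀_mk₀] at this
  have hcl1 : ∀ z ∈ LOff (h.Tz : Set (Place K F)) D'', z ∈
      AddSubgroup.closure {z : F | ∃ f ∈ LOff (h.Tz : Set (Place K F)) D,
        ∃ g ∈ LOff (h.Tz : Set (Place K F)) D', z = c * f * g} := by
    intro z hz
    obtain ⟨u, hu⟩ := t.bijective₁.2 (e''.e₁.symm (h.mk₁ D'' z hz))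
    have := hspan1 u
    rwa [hu, LinearEquiv.apply_symm_apply, val₁_mk₁] at this
  -- `c ≠ 0`
  have hc0 : c ≠ 0 := by
    rintro rfl
    obtain ⟨z, hz0, hz⟩ := exists_ne_zero_mem_LOff h.Ti h.Ti_nonempty D''
    have hzero : ∀ w ∈ AddSubgroup.closure {z : F | ∃ f ∈ LOff (h.Ti : Set (Place K F)) D,
        ∃ g ∈ LOff (h.Ti : Set (Place K F)) D', z = 0 * f * g}, w = 0 := by
      intro w hw
      refine AddSubgroup.closure_induction (p := fun w _ => w = 0) ?_ rfl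
        (fun _ _ _ _ ha hb => by rw [ha, hb, add_zero]) (fun _ _ ha => by rw [ha, neg_zero]) hw
      rintro _ ⟨f, -, g, -, rfl⟩
      rw [zero_mul, zero_mul]
    exact hz0 (hzero z (hcl0 z hz))
  refine ⟨c, hc0, fun v => ?_⟩
  rw [Finsupp.sub_apply, Finsupp.add_apply]
  rcases h.not_mem_Ti_or_not_mem_Tz v with hv | hv
  · have := eq_add_sub_ord_of_mul h.Ti h.Ti_nonempty D D' D'' c hc0
      (fun f hf g hg => by
        have := h.val₀_mem D'' (e''.e₀ (t.β₀ (e.e₀.symm (h.mk₀ D f hf))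
          (e'.e₀.symm (h.mk₀ D' g hg))))
        rwa [h0, LinearEquiv.apply_symm_apply, LinearEquiv.apply_symm_apply, val₀_mk₀,
          val₀_mk₀] at this) hcl0 v hv
    omega
  · have := eq_add_sub_ord_of_mul h.Tz h.Tz_nonempty D D' D'' c hc0
      (fun f hf g hg => by
        have := h.val₁_mem D'' (e''.e₁ (t.β₁ (e.e₁.symm (h.mk₁ D f hf))
          (e'.e₁.symm (h.mk₁ D' g hg))))
        rwa [h1, LinearEquiv.apply_symm_apply, LinearEquiv.apply_symm_apply, val₁_mk₁,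
          val₁_mk₁] at this) hcl1 v hv
    omega

end IsFFCospan

end Cospan

end Fermat.Agent.S27.H970
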