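import Fermat.Agent.S27.H970.Euler
import Fermat.Agent.Lib.RR.H439.StrongApprox

/-!
# S27 / PIC-CL tools (helper970): rigidity of rank-one lattices, exact orders

* `linearMap_eq_mul`, `bilinear_eq_mul` : linear (bilinear) maps between `R`-submodules of
  `F = Frac R` are multiplication by a constant.
* `exists_mem_LOff_ord_eq` : the order `-D v` is attained on `LOff T D` at every `v ∉ T`
  (strong approximation).
-/

set_option autoImplicit false
set_option linter.unusedSectionVars false
set_option linter.style.haveILetI false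

noncomputable section

open AlgebraicCurve

namespace Fermat.Agent.S27.H970

open Fermat.Agent.Lib.RR Fermat.Agent.Lib.RR.H638 Fermat.Agent.Lib.RR.H623

section Rigid

variable {R F : Type*} [CommRing R] [Field F] [Algebra R F] [IsDomain R] [IsFractionRing R F]

/-- A linear map from an `R`-submodule of `F = Frac R` to `F` is multiplication by a
constant. -/
theorem linearMap_eq_mul {N : Submodule R F} (φ : N →ₗ[R] F) :
    ∃ c : F, ∀ f : N, φ f = c * (f : F) := by
  by_cases hN : ∃ f₀ : N, (f₀ : F) ≠ 0
  · obtain ⟨f₀, hf₀⟩ := hN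
    refine ⟨φ f₀ / (f₀ : F), fun f => ?_⟩
    obtain ⟨a, b, hb, hab⟩ := IsFractionRing.div_surjective (A := R) ((f : F) / (f₀ : F))
    have hb0 : algebraMap R F b ≠ 0 := by
      intro h0
      exact nonZeroDivisors.ne_zero hb (IsFractionRing.injective R F (by rw [h0, map_zero]))
    have h1 : b • f = a • f₀ := by
      apply Subtype.ext
      show b • (f : F) = a • (f₀ : F)
      rw [Algebra.smul_def, Algebra.smul_def]
      have hab' := hab
      field_simp at hab'
      exact hab'.symm
    have h2 := congrArg φ h1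
    rw [map_smul, map_smul, Algebra.smul_def, Algebra.smul_def] at h2
    have h3 : φ f = algebraMap R F a / algebraMap R F b * φ f₀ := by
      field_simp
      rw [mul_comm, h2, mul_comm]
    rw [h3, hab]
    field_simp
  · push_neg at hN
    refine ⟨0, fun f => ?_⟩
    have : f = 0 := Subtype.ext (hN f)
    rw [this, map_zero, zero_mul]

/-- A bilinear map on `R`-submodules of `F = Frac R` with values in `F` is
`(f, g) ↦ c f g`. -/
theorem bilinear_eq_mul {N N' : Submodule R F} (β : N →ₗ[R] N' →ₗ[R] F) :
    ∃ c : F, ∀ (f : N) (g : N'), β f g = c * (f : F) * (g : F) := by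
  by_cases hN : ∃ g₀ : N', (g₀ : F) ≠ 0
  · obtain ⟨g₀, hg₀⟩ := hN
    obtain ⟨c, hc⟩ := linearMap_eq_mul (β.flip g₀)
    refine ⟨c / (g₀ : F), fun f g => ?_⟩
    obtain ⟨d, hd⟩ := linearMap_eq_mul (β f)
    have h1 : β f g₀ = c * (f : F) := hc f
    have h2 : β f g₀ = d * (g₀ : F) := hd g₀
    have h3 : d = c * (f : F) / (g₀ : F) := by
      field_simp
      rw [← h2, h1]
    rw [hd g, h3]
    field_simp
  · push_neg at hN
    refine ⟨0, fun f g => ?_⟩
    have : g = 0 := Subtype.ext (hN g)
    rw [this, map_zero, zero_mul, zero_mul]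

end Rigid

section Exact

variable {K F : Type*} [Field K] [Field F] [Algebra K F] [FF1 K F]

/-- **Exactness of the bound**: for `v ∉ T` (`T` finite nonempty) there is `f ∈ LOff T D` with
`ord_v f = -D v`. -/
theorem exists_mem_LOff_ord_eq (T : Finset (Place K F)) (hT : T.Nonempty) (D : Divisor K F)
    (v : Place K F) (hv : v ∉ T) :
    ∃ f : F, f ∈ LOff (T : Set (Place K F)) D ∧ f ≠ 0 ∧ v.ord f = -D v := by
  classical
  have h1 : 1 ≤ T.card := Finset.card_pos.mpr hT
  set n : ℕ := (2 * (genusFF K F : ℤ) - Divisor.degree D + 1).toNat with hn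
  set E : Divisor K F := D - prim v + n • divT T with hE
  have hdeg : 2 * (genusFF K F : ℤ) - 2 < Divisor.degree E := by
    rw [hE, map_add, map_sub, degree_prim', degree_nsmul_divT]
    have h3 : 2 * (genusFF K F : ℤ) - Divisor.degree D + 1 ≤ n := Int.self_le_toNat _
    have h4 : (n : ℤ) ≤ n * T.card := by
      have : (1 : ℤ) ≤ T.card := by exact_mod_cast h1
      have : (0 : ℤ) ≤ n := Int.natCast_nonneg n
      nlinarith
    omega
  obtain ⟨t, ht0, ht⟩ := exists_ord_eq' v (-D v)
  obtain ⟨f, hf1, hf2⟩ := H439.exists_approx hdeg {v} (fun _ => t)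
  have hEv : E v = D v - 1 := by
    rw [hE]
    simp only [Finsupp.coe_add, Finsupp.coe_sub, Pi.add_apply, Pi.sub_apply, prim_apply_self,
      Finsupp.coe_smul, Pi.smul_apply, divT_apply_not_mem hv, smul_zero, add_zero]
  have hEw : ∀ w : Place K F, w ≠ v → w ∉ T → E w = D w := by
    intro w hwv hw
    rw [hE]
    simp only [Finsupp.coe_add, Finsupp.coe_sub, Pi.add_apply, Pi.sub_apply,
      prim_apply_of_ne hwv, Finsupp.coe_smul, Pi.smul_apply, divT_apply_not_mem hw, smul_zero,
      add_zero, sub_zero]
  have hfv := hf1 v (Finset.mem_singleton_self v)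
  rw [hEv] at hfv
  -- `f = t + (f - t)` with `ord (f - t) > ord t`
  have hford : f ≠ 0 ∧ v.ord f = -D v := by
    rcases hfv with h0 | h0
    · have : f = t := sub_eq_zero.mp h0
      rw [this]
      exact ⟨ht0, ht⟩
    · by_cases hft : f - t = 0
      · have : f = t := sub_eq_zero.mp hft
        rw [this]
        exact ⟨ht0, ht⟩
      · have hlt : v.ord t < v.ord (f - t) := by rw [ht]; omega
        have := ord_add_eq_of_lt v ht0 hft hlt
        rw [add_sub_cancel] at this
        refine ⟨?_, by rw [this, ht]⟩
        intro hf0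
        rw [hf0, zero_sub, ord_neg] at hlt
        exact lt_irrefl _ hlt
  refine ⟨f, fun w hw => ?_, hford.1, hford.2⟩
  have hw' : w ∉ T := fun h => hw (Finset.mem_coe.mpr h)
  by_cases hwv : w = v
  · subst hwv
    exact Or.inr (le_of_eq hford.2.symm)
  · have := hf2 w (by rw [Finset.mem_singleton]; exact hwv)
    rw [hEw w hwv hw'] at this
    exact this

end Exact

end Fermat.Agent.S27.H970
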